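import Mathlib.NumberTheory.ModularForms.Discriminant
import Mathlib.RingTheory.PowerSeries.Basic

/-!
Shared definitions for the integral-structure project (S23 / S22).
-/

set_option autoImplicit false

namespace Fermat.Agent.S23

open UpperHalfPlane

/-- Power series over `ℂ` all of whose coefficients are integers. -/
def IsIntPS (A : PowerSeries ℂ) : Prop :=
  ∀ n : ℕ, ∃ m : ℤ, PowerSeries.coeff n A = (m : ℂ)

/-- Power series over `ℂ` all of whose coefficients are rational. -/
def IsRatPS (A : PowerSeries ℂ) : Prop :=
  ∀ n : ℕ, ∃ r : ℚ, PowerSeries.coeff n A = (r : ℂ)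

/-- The complex span of the integer-coefficient power series. -/
def spanIntPS : Submodule ℂ (PowerSeries ℂ) :=
  Submodule.span ℂ {A | IsIntPS A}

/-- The function `τ ↦ Δ(N τ)` on the upper half plane. -/
noncomputable def DeltaNFun (N : ℕ) : ℍ → ℂ :=
  fun τ => ModularForm.discriminant (UpperHalfPlane.ofComplex ((N : ℂ) * (τ : ℂ)))

end Fermat.Agent.S23
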