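import Mathlib.NumberTheory.ModularForms.NormTrace
import Mathlib.NumberTheory.ModularForms.CongruenceSubgroups
import Fermat.Agent.S23.Defs

/-!
Definitions for the `SL(2, ℤ)`-translates of a form on `Γ₀(N)` (interface file).
-/

set_option autoImplicit false

namespace Fermat.Agent.S23

open UpperHalfPlane ModularForm SlashInvariantForm
open scoped MatrixGroups Manifold ModularForm

/-- `Γ₀(N)` as a subgroup of `GL(2, ℝ)`. -/
abbrev Γ0 (N : ℕ) : Subgroup (GL (Fin 2) ℝ) :=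
  (CongruenceSubgroup.Gamma0 N : Subgroup (GL (Fin 2) ℝ))

/-- The cosets of `Γ₀(N)` in `SL(2, ℤ)`. -/
abbrev Q (N : ℕ) : Type := 𝒮ℒ ⧸ ((Γ0 N).subgroupOf 𝒮ℒ)

noncomputable instance instFintypeQ (N : ℕ) [NeZero N] : Fintype (Q N) := Fintype.ofFinite _

/-- The translates of a slash-invariant form on `Γ₀(N)`, indexed by cosets. -/
noncomputable def tr {N : ℕ} {κ : ℤ} {F : Type*} [FunLike F ℍ ℂ]
    [SlashInvariantFormClass F (Γ0 N) κ] (f : F) : Q N → ℍ → ℂ :=
  SlashInvariantForm.quotientFunc f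

/-- A family of holomorphic functions indexed by cosets, permuted by the weight `κ` slash
action of `SL(2, ℤ)`, each bounded at `i∞`. -/
structure IsEquivFamily (N : ℕ) (κ : ℤ) (ψ : Q N → ℍ → ℂ) : Prop where
  slash : ∀ (h : 𝒮ℒ) (q : Q N), ψ q ∣[κ] (h : GL (Fin 2) ℝ) = ψ (h⁻¹ • q)
  holo : ∀ q, MDiff (ψ q)
  bdd : ∀ q, IsBoundedAtImInfty (ψ q)

end Fermat.Agent.S23
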