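import Mathlib.RingTheory.MvPolynomial.Symmetric.Defs
import Fermat.Agent.S23.TranslatesDefs

/-!
API for the `SL(2, ℤ)`-translates of a form on `Γ₀(N)`: sums and elementary symmetric
functions of an equivariant family are level one modular forms.
-/

set_option autoImplicit false

namespace Fermat.Agent.S23

open UpperHalfPlane ModularForm SlashInvariantForm Matrix.SpecialLinearGroup
open scoped MatrixGroups Manifold ModularForm

variable {N : ℕ} [NeZero N] {κ κ₁ κ₂ : ℤ}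

omit [NeZero N] in
theorem tr_mk {F : Type*} [FunLike F ℍ ℂ] [SlashInvariantFormClass F (Γ0 N) κ] (f : F) (h : 𝒮ℒ) :
    tr f (QuotientGroup.mk h) = (f : ℍ → ℂ) ∣[κ] (h : GL (Fin 2) ℝ)⁻¹ := rfl

omit [NeZero N] in
theorem tr_one {F : Type*} [FunLike F ℍ ℂ] [SlashInvariantFormClass F (Γ0 N) κ] (f : F) :
    tr f (QuotientGroup.mk 1 : Q N) = (f : ℍ → ℂ) := by
  rw [tr_mk]
  simp

/-- The element of `𝒮ℒ` attached to an element of `SL(2, ℤ)`. -/
noncomputable def slElt (γ : SL(2, ℤ)) : 𝒮ℒ := (mapGL ℝ).rangeRestrict γ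

theorem exists_slElt_eq (h : 𝒮ℒ) : ∃ γ : SL(2, ℤ), slElt γ = h := by
  obtain ⟨h, γ, rfl⟩ := h
  exact ⟨γ, rfl⟩

omit [NeZero N] in
/-- Every translate is a slash by an element of `SL(2, ℤ)`. -/
theorem exists_tr_eq_slash {F : Type*} [FunLike F ℍ ℂ] [SlashInvariantFormClass F (Γ0 N) κ]
    (f : F) (q : Q N) : ∃ γ : SL(2, ℤ), tr f q = (f : ℍ → ℂ) ∣[κ] γ := by
  induction q using Quotient.inductionOn with
  | h r =>
    obtain ⟨γ, rfl⟩ := exists_slElt_eq r
    refine ⟨γ⁻¹, ?_⟩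
    show (f : ℍ → ℂ) ∣[κ] (mapGL ℝ γ)⁻¹ = (f : ℍ → ℂ) ∣[κ] (mapGL ℝ γ⁻¹)
    rw [map_inv]

theorem isEquivFamily_tr {F : Type*} [FunLike F ℍ ℂ] [ModularFormClass F (Γ0 N) κ] (f : F) :
    IsEquivFamily N κ (tr f) where
  slash h q := quotientFunc_smul f h.2 q
  holo q := by
    obtain ⟨γ, hγ⟩ := exists_tr_eq_slash f q
    rw [hγ]
    exact (ModularFormClass.holo f).slash κ _
  bdd q := by
    obtain ⟨γ, hγ⟩ := exists_tr_eq_slash f q
    rw [hγ]
    exact ModularFormClass.bdd_at_infty_slash f γ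

theorem isZeroAtImInfty_tr {F : Type*} [FunLike F ℍ ℂ] [CuspFormClass F (Γ0 N) κ] (f : F)
    (q : Q N) : IsZeroAtImInfty (tr f q) := by
  obtain ⟨γ, hγ⟩ := exists_tr_eq_slash f q
  rw [hγ]
  exact CuspFormClass.zero_at_infty_slash f γ

omit [NeZero N] in
theorem IsEquivFamily.slash_SL {ψ : Q N → ℍ → ℂ} (h : IsEquivFamily N κ ψ) (γ : SL(2, ℤ))
    (q : Q N) : ψ q ∣[κ] γ = ψ ((slElt γ)⁻¹ • q) :=
  h.slash (slElt γ) q

omit [NeZero N] in
theorem IsEquivFamily.congr_weight {ψ : Q N → ℍ → ℂ} (h : IsEquivFamily N κ₁ ψ)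
    (e : κ₁ = κ₂) : IsEquivFamily N κ₂ ψ := e ▸ h

omit [NeZero N] in
theorem IsEquivFamily.mul {ψ₁ ψ₂ : Q N → ℍ → ℂ} (h₁ : IsEquivFamily N κ₁ ψ₁)
    (h₂ : IsEquivFamily N κ₂ ψ₂) : IsEquivFamily N (κ₁ + κ₂) (fun q => ψ₁ q * ψ₂ q) where
  slash h q := by
    obtain ⟨γ, rfl⟩ := exists_slElt_eq h
    show (ψ₁ q * ψ₂ q) ∣[κ₁ + κ₂] γ = _
    rw [mul_slash_SL2, h₁.slash_SL, h₂.slash_SL]
  holo q := (h₁.holo q).mul (h₂.holo q)
  bdd q := (h₁.bdd q).mul (h₂.bdd q)

omit [NeZero N] in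
theorem IsEquivFamily.one : IsEquivFamily N 0 (fun _ : Q N => (1 : ℍ → ℂ)) where
  slash h q := by
    obtain ⟨γ, rfl⟩ := exists_slElt_eq h
    exact is_invariant_one γ
  holo q := mdifferentiable_const
  bdd q := Filter.const_boundedAtFilter _ (1 : ℂ)

omit [NeZero N] in
theorem IsEquivFamily.pow {ψ : Q N → ℍ → ℂ} (h : IsEquivFamily N κ ψ) (m : ℕ) :
    IsEquivFamily N (κ * m) (fun q => ψ q ^ m) := by
  induction m with
  | zero =>
    have h1 : (fun q : Q N => ψ q ^ 0) = fun _ => 1 := by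
      funext q; exact pow_zero _
    rw [h1]
    exact (IsEquivFamily.one (N := N)).congr_weight (by simp)
  | succ m ih =>
    have h1 : (fun q : Q N => ψ q ^ (m + 1)) = fun q => ψ q ^ m * ψ q := by
      funext q; exact pow_succ _ _
    rw [h1]
    exact (ih.mul h).congr_weight (by push_cast; ring)

omit [NeZero N] in
/-- Reindexing the coset multiset by the action of an element of `SL(2, ℤ)`. -/
theorem map_smul_univ_val (h : 𝒮ℒ) {α : Type*} [Fintype (Q N)] (a : Q N → α) :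
    (Finset.univ : Finset (Q N)).val.map (fun q => a (h • q)) = Finset.univ.val.map a := by
  have h1 : (Finset.univ : Finset (Q N)).val.map (fun q => a (h • q)) =
      ((Finset.univ : Finset (Q N)).val.map (MulAction.toPerm h)).map a := by
    rw [Multiset.map_map]; rfl
  rw [h1]
  congr 1
  have := Finset.map_univ_equiv (MulAction.toPerm h : Q N ≃ Q N)
  exact congrArg Finset.val this

theorem IsEquivFamily.exists_sum {ψ : Q N → ℍ → ℂ} (h : IsEquivFamily N κ ψ) :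
    ∃ F : ModularForm 𝒮ℒ κ, ∀ z, F z = ∑ q, ψ q z := by
  have hinv : ∀ γ : SL(2, ℤ), (∑ q, ψ q) ∣[κ] γ = ∑ q, ψ q := by
    intro γ
    rw [SlashAction.sum_slash]
    simp_rw [h.slash_SL γ]
    exact Equiv.sum_comp (MulAction.toPerm (slElt γ)⁻¹) ψ
  have hbdd : IsBoundedAtImInfty (∑ q, ψ q) :=
    (Filter.boundedFilterSubmodule ℂ atImInfty).sum_mem fun q _ => h.bdd q
  refine ⟨{ toFun := ∑ q, ψ q
            slash_action_eq' := ?_
            holo' := MDifferentiable.sum fun q _ => h.holo q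
            bdd_at_cusps' := ?_ }, fun z => ?_⟩
  · rintro _ ⟨γ, rfl⟩
    exact hinv γ
  · intro c hc
    rw [OnePoint.isBoundedAt_iff_forall_SL2Z hc]
    intro γ _
    show IsBoundedAtImInfty ((∑ q, ψ q) ∣[κ] γ)
    rw [hinv γ]
    exact hbdd
  · show (∑ q, ψ q) z = _
    rw [Finset.sum_apply]

theorem IsEquivFamily.exists_esymm {ψ : Q N → ℍ → ℂ} (h : IsEquivFamily N κ ψ) (j : ℕ) :
    ∃ F : ModularForm 𝒮ℒ (κ * j),
      ∀ z, F z = (Finset.univ.val.map (fun q => ψ q z)).esymm j := by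
  classical
  let G : ℍ → ℂ := ∑ t ∈ (Finset.univ : Finset (Q N)).powersetCard j, ∏ q ∈ t, ψ q
  have hG : ∀ z, G z = (Finset.univ.val.map (fun q => ψ q z)).esymm j := by
    intro z
    rw [Finset.esymm_map_val]
    simp [G, Finset.sum_apply, Finset.prod_apply]
  have hinv : ∀ γ : SL(2, ℤ), G ∣[κ * j] γ = G := by
    intro γ
    have hterm : ∀ t ∈ (Finset.univ : Finset (Q N)).powersetCard j,
        (∏ q ∈ t, ψ q) ∣[κ * j] γ = ∏ q ∈ t, ψ ((slElt γ)⁻¹ • q) := by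
      intro t ht
      have hcard : t.card = j := (Finset.mem_powersetCard.mp ht).2
      have := prod_slash (k := κ) (g := mapGL ℝ γ) (f := ψ) (s := t)
      rw [hcard] at this
      show (∏ q ∈ t, ψ q) ∣[κ * j] (mapGL ℝ γ) = _
      rw [this]
      have hdet : |((mapGL ℝ γ).det : ℝ)| = 1 := by simp
      rw [hdet, one_zpow, one_smul]
      exact Finset.prod_congr rfl fun q _ => h.slash_SL γ q
    show (∑ t ∈ (Finset.univ : Finset (Q N)).powersetCard j, ∏ q ∈ t, ψ q) ∣[κ * j] γ = G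
    rw [SlashAction.sum_slash, Finset.sum_congr rfl hterm]
    funext z
    rw [hG z, ← map_smul_univ_val (slElt γ)⁻¹ (fun q => ψ q z), Finset.esymm_map_val]
    simp [Finset.sum_apply, Finset.prod_apply]
  have hbdd : IsBoundedAtImInfty G :=
    (Filter.boundedFilterSubmodule ℂ atImInfty).sum_mem fun t _ =>
      Filter.BoundedAtFilter.prod t fun q _ => h.bdd q
  refine ⟨{ toFun := G
            slash_action_eq' := ?_
            holo' := MDifferentiable.sum fun t _ => MDifferentiable.prod fun q _ => h.holo q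
            bdd_at_cusps' := ?_ }, hG⟩
  · rintro _ ⟨γ, rfl⟩
    exact hinv γ
  · intro c hc
    rw [OnePoint.isBoundedAt_iff_forall_SL2Z hc]
    intro γ _
    show IsBoundedAtImInfty (G ∣[κ * j] γ)
    rw [hinv γ]
    exact hbdd

theorem isZeroAtImInfty_esymm {ψ : Q N → ℍ → ℂ} (hz : ∀ q, IsZeroAtImInfty (ψ q)) {j : ℕ}
    (hj : 0 < j) :
    IsZeroAtImInfty (fun z => (Finset.univ.val.map (fun q => ψ q z)).esymm j) := by
  classical
  simp_rw [Finset.esymm_map_val]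
  rw [IsZeroAtImInfty, Filter.ZeroAtFilter]
  have h0 : (0 : ℂ) = ∑ t ∈ (Finset.univ : Finset (Q N)).powersetCard j, (0 : ℂ) := by simp
  rw [h0]
  refine tendsto_finsetSum _ fun t ht => ?_
  have hcard : t.card = j := (Finset.mem_powersetCard.mp ht).2
  have hne : t.Nonempty := Finset.card_pos.mp (hcard ▸ hj)
  obtain ⟨q0, hq0⟩ := hne
  have h1 : Filter.Tendsto (fun z => ∏ q ∈ t, ψ q z) atImInfty (nhds (∏ q ∈ t, (0 : ℂ))) :=
    tendsto_finsetProd _ fun q _ => hz q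
  rwa [Finset.prod_eq_zero hq0 rfl] at h1

end Fermat.Agent.S23
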