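import Mathlib.RingTheory.Polynomial.Vieta
import Fermat.Agent.S23.Translates

/-!
A cusp form on `Γ₀(N)` is a root of a monic polynomial whose lower coefficients are
level one modular forms vanishing at infinity.
-/

set_option autoImplicit false

namespace Fermat.Agent.S23

open UpperHalfPlane ModularForm SlashInvariantForm
open scoped MatrixGroups Manifold ModularForm

/-- Vieta: a member of a multiset is a root of the polynomial built from the elementary
symmetric functions. -/
theorem sum_esymm_eq_zero_of_mem (s : Multiset ℂ) {x : ℂ} (hx : x ∈ s) :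
    x ^ s.card + ∑ i : Fin s.card,
      ((-1 : ℂ) ^ (s.card - (i : ℕ)) * s.esymm (s.card - (i : ℕ))) * x ^ (i : ℕ) = 0 := by
  have h := congrArg (Polynomial.eval x) (Multiset.prod_X_sub_X_eq_sum_esymm s)
  have hL : Polynomial.eval x (s.map fun t => Polynomial.X - Polynomial.C t).prod = 0 := by
    rw [Polynomial.eval_multiset_prod, Multiset.map_map]
    apply Multiset.prod_eq_zero
    rw [Multiset.mem_map]
    exact ⟨x, hx, by simp⟩
  rw [hL, Polynomial.eval_finsetSum] at h
  simp only [Polynomial.eval_mul, Polynomial.eval_pow, Polynomial.eval_neg, Polynomial.eval_one,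
    Polynomial.eval_C, Polynomial.eval_X] at h
  have h0 : s.esymm 0 = 1 := by
    simp [Multiset.esymm, Multiset.powersetCard_zero_left]
  rw [Finset.sum_range_succ', ← Finset.sum_range_reflect, Finset.sum_range] at h
  refine Eq.trans ?_ h.symm
  rw [add_comm]
  congr 1
  · refine Finset.sum_congr rfl fun i _ => ?_
    have hi : (i : ℕ) < s.card := i.2
    have h1 : s.card - 1 - (i : ℕ) + 1 = s.card - (i : ℕ) := by omega
    have h2 : s.card - (s.card - (i : ℕ)) = (i : ℕ) := by omega
    rw [h1, h2]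
    ring
  · rw [h0]
    simp

theorem exists_monic_relation_cusp (N : ℕ) [NeZero N] (k : ℤ) (f : CuspForm (Γ0 N) k) :
    ∃ (n : ℕ) (c : (j : Fin n) → ModularForm 𝒮ℒ (k * ((n : ℤ) - (j : ℕ)))),
      0 < n ∧ (∀ j, IsZeroAtImInfty (c j)) ∧
        ∀ z : ℍ, f z ^ n + ∑ j : Fin n, c j z * f z ^ (j : ℕ) = 0 := by
  classical
  have hψ : IsEquivFamily N k (tr f) := isEquivFamily_tr f
  choose E hE using fun i : ℕ => hψ.exists_esymm i
  let n : ℕ := Fintype.card (Q N)
  have hcard : ∀ z : ℍ, (Finset.univ.val.map (fun q : Q N => tr f q z)).card = n := by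
    intro z
    rw [Multiset.card_map]
    rfl
  have hwt : ∀ j : Fin n, k * ((n - (j : ℕ) : ℕ) : ℤ) = k * ((n : ℤ) - (j : ℕ)) := by
    intro j
    have : (j : ℕ) ≤ n := j.2.le
    rw [Nat.cast_sub this]
  refine ⟨n, fun j => ((-1 : ℂ) ^ (n - (j : ℕ))) • ModularForm.mcast (hwt j) (E (n - (j : ℕ))),
    Fintype.card_pos, fun j => ?_, fun z => ?_⟩
  · have hj : 0 < n - (j : ℕ) := Nat.sub_pos_of_lt j.2
    have h0 := isZeroAtImInfty_esymm (ψ := tr f) (fun q => isZeroAtImInfty_tr f q) hj
    have hfun : (⇑(((-1 : ℂ) ^ (n - (j : ℕ))) • ModularForm.mcast (hwt j) (E (n - (j : ℕ)))) :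
        ℍ → ℂ) = ((-1 : ℂ) ^ (n - (j : ℕ))) •
          (fun z => (Finset.univ.val.map (fun q : Q N => tr f q z)).esymm (n - (j : ℕ))) := by
      funext z
      show ((-1 : ℂ) ^ (n - (j : ℕ))) • (E (n - (j : ℕ)) z) = _
      rw [hE]
      rfl
    rw [hfun]
    exact Filter.ZeroAtFilter.smul _ h0
  · have hmem : f z ∈ Finset.univ.val.map (fun q : Q N => tr f q z) := by
      rw [Multiset.mem_map]
      exact ⟨QuotientGroup.mk 1, Finset.mem_univ_val _, by rw [tr_one]⟩
    have h := sum_esymm_eq_zero_of_mem _ hmem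
    rw [hcard z] at h
    rw [← h]
    congr 1
    refine Finset.sum_congr rfl fun j _ => ?_
    show (((-1 : ℂ) ^ (n - (j : ℕ))) • (E (n - (j : ℕ)) z)) * f z ^ (j : ℕ) = _
    rw [hE, smul_eq_mul]

end Fermat.Agent.S23
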