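import Fermat.Agent.S23.QF
import Fermat.Prelude.Def_ModularForm_HeckeOperator

/-!
`DeltaN N`: the function `τ ↦ Δ(N τ)` as a modular form of weight `12` on `Γ₀(N)`, together with
its `q`-expansion `∑ τ(m) q ^ (N m)`.
-/

set_option autoImplicit false

namespace Fermat.Agent.S23

open UpperHalfPlane ModularForm
open scoped Manifold MatrixGroups ModularForm

theorem heckeDiag_smul_eq (N : ℕ) [NeZero N] (τ : ℍ) :
    heckeDiagMatrix N • τ = ofComplex ((N : ℂ) * (τ : ℂ)) := by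
  rw [← coe_heckeDiagMatrix_smul (NeZero.ne N) τ, ofComplex_apply]

theorem DeltaNFun_eq (N : ℕ) [NeZero N] :
    DeltaNFun N = ((N : ℂ) ^ (11 : ℤ))⁻¹ •
      (ModularForm.discriminant ∣[(12 : ℤ)] heckeDiagMatrix N) := by
  ext τ
  have hN : (N : ℂ) ≠ 0 := Nat.cast_ne_zero.mpr (NeZero.ne N)
  rw [Pi.smul_apply, slash_heckeDiagMatrix_apply 12 (NeZero.ne N), smul_eq_mul,
    heckeDiag_smul_eq, DeltaNFun]
  have h11 : (12 : ℤ) - 1 = 11 := by norm_num
  rw [h11, ← mul_assoc, inv_mul_cancel₀ (zpow_ne_zero _ hN), one_mul]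

/-- Conjugating `Γ₀(N)` by `diag(N, 1)` lands in `SL(2, ℤ)`. -/
theorem exists_conj_of_mem_Γ0 (N : ℕ) [NeZero N] {γ : GL (Fin 2) ℝ} (hγ : γ ∈ Γ0 N) :
    ∃ g' : SL(2, ℤ), heckeDiagMatrix N * γ =
      (Matrix.SpecialLinearGroup.mapGL ℝ g') * heckeDiagMatrix N := by
  obtain ⟨g, hg, rfl⟩ := Subgroup.mem_map.mp hγ
  rw [CongruenceSubgroup.Gamma0_mem, ZMod.intCast_zmod_eq_zero_iff_dvd] at hg
  obtain ⟨c', hc'⟩ := hg
  have hdet : g 0 0 * g 1 1 - g 0 1 * g 1 0 = 1 := by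
    have := g.det_coe
    rwa [Matrix.det_fin_two] at this
  have hdet' : Matrix.det !![g 0 0, N * g 0 1; c', g 1 1] = 1 := by
    rw [Matrix.det_fin_two_of]
    rw [hc'] at hdet
    linarith
  refine ⟨⟨!![g 0 0, N * g 0 1; c', g 1 1], hdet'⟩, ?_⟩
  have h1 : ((Matrix.SpecialLinearGroup.mapGL ℝ g : GL (Fin 2) ℝ) : Matrix (Fin 2) (Fin 2) ℝ)
      = !![((g 0 0 : ℤ) : ℝ), ((g 0 1 : ℤ) : ℝ); (N : ℝ) * (c' : ℝ), ((g 1 1 : ℤ) : ℝ)] := by
    ext i j
    fin_cases i <;> fin_cases j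
    · rfl
    · rfl
    · show ((g 1 0 : ℤ) : ℝ) = (N : ℝ) * (c' : ℝ)
      rw [hc']; push_cast; rfl
    · rfl
  have h2 : ((Matrix.SpecialLinearGroup.mapGL ℝ
      (⟨!![g 0 0, N * g 0 1; c', g 1 1], hdet'⟩ : SL(2, ℤ)) : GL (Fin 2) ℝ) :
        Matrix (Fin 2) (Fin 2) ℝ)
      = !![((g 0 0 : ℤ) : ℝ), (N : ℝ) * ((g 0 1 : ℤ) : ℝ); (c' : ℝ), ((g 1 1 : ℤ) : ℝ)] := by
    ext i j
    fin_cases i <;> fin_cases j
    · rfl
    · show (((N : ℤ) * g 0 1 : ℤ) : ℝ) = (N : ℝ) * ((g 0 1 : ℤ) : ℝ)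
      push_cast; rfl
    · rfl
    · rfl
  apply Units.ext
  rw [Units.val_mul, Units.val_mul, val_heckeDiagMatrix (NeZero.ne N), h1, h2]
  simp only [Matrix.mul_fin_two, mul_zero, add_zero, zero_mul, zero_add, one_mul, mul_one]
  rw [mul_comm ((g 0 0 : ℤ) : ℝ) (N : ℝ), mul_comm (c' : ℝ) (N : ℝ)]

open ConjAct Pointwise in
theorem Γ0_le_conj (N : ℕ) [NeZero N] :
    Γ0 N ≤ toConjAct (heckeDiagMatrix N)⁻¹ • 𝒮ℒ := by
  intro γ hγ
  obtain ⟨g', hg'⟩ := exists_conj_of_mem_Γ0 N hγ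
  have h1 : γ = toConjAct (heckeDiagMatrix N)⁻¹ • (Matrix.SpecialLinearGroup.mapGL ℝ g') := by
    rw [ConjAct.toConjAct_smul, inv_inv, mul_assoc, ← hg', ← mul_assoc, inv_mul_cancel, one_mul]
  rw [h1]
  exact Subgroup.smul_mem_pointwise_smul _ _ _ ⟨g', rfl⟩

/-- Restriction of a modular form to a smaller subgroup. -/
def restrictLE {Γ Γ' : Subgroup (GL (Fin 2) ℝ)} (h : Γ' ≤ Γ) {k : ℤ} (f : ModularForm Γ k) :
    ModularForm Γ' k where
  toFun := f
  slash_action_eq' γ hγ := f.slash_action_eq' γ (h hγ)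
  holo' := f.holo'
  bdd_at_cusps' hc := f.bdd_at_cusps' (hc.mono h)

/-- `τ ↦ Δ(N τ)` as a modular form of weight `12` on `Γ₀(N)`. -/
noncomputable def DeltaN (N : ℕ) [NeZero N] : ModularForm (Γ0 N) 12 :=
  ((N : ℂ) ^ (11 : ℤ))⁻¹ • restrictLE (Γ0_le_conj N)
    (ModularForm.translate CuspForm.discriminant (heckeDiagMatrix N))

theorem coe_DeltaN (N : ℕ) [NeZero N] : ⇑(DeltaN N) = DeltaNFun N := by
  rw [DeltaNFun_eq]
  rfl

theorem isQF_discriminant : IsQF ModularForm.discriminant where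
  per := SlashInvariantFormClass.periodic_comp_ofComplex CuspForm.discriminant
    one_mem_strictPeriods_SL
  holo := ModularFormClass.holo CuspForm.discriminant
  bdd := by
    have : Fact (IsCusp OnePoint.infty 𝒮ℒ) :=
      ⟨Subgroup.isCusp_of_mem_strictPeriods one_pos one_mem_strictPeriods_SL⟩
    exact ModularFormClass.bdd_at_infty CuspForm.discriminant

theorem isQF_DeltaNFun (N : ℕ) [NeZero N] : IsQF (DeltaNFun N) := by
  rw [← coe_DeltaN]
  exact isQF_of_Γ0 (DeltaN N)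

theorem qParam_nat_mul (N : ℕ) (z : ℂ) :
    Function.Periodic.qParam 1 ((N : ℂ) * z) = Function.Periodic.qParam 1 z ^ N := by
  rw [Function.Periodic.qParam, Function.Periodic.qParam, ← Complex.exp_nat_mul]
  congr 1
  push_cast
  ring

theorem hasSum_DeltaNFun (N : ℕ) [NeZero N] (τ : ℍ) :
    HasSum (fun n : ℕ => (if N ∣ n then (qExpansion 1 ModularForm.discriminant).coeff (n / N)
      else 0) • Function.Periodic.qParam 1 τ ^ n) (DeltaNFun N τ) := by
  have hN : 0 < N := Nat.pos_of_ne_zero (NeZero.ne N)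
  have h1 := isQF_discriminant.hasSum_qExpansion (heckeDiagMatrix N • τ)
  rw [coe_heckeDiagMatrix_smul (NeZero.ne N), qParam_nat_mul, heckeDiag_smul_eq] at h1
  have hinj : Function.Injective (fun m : ℕ => N * m) := fun a b hab =>
    Nat.eq_of_mul_eq_mul_left hN hab
  refine (Function.Injective.hasSum_iff hinj ?_).mp ?_
  · intro n hn
    have hnd : ¬ N ∣ n := fun ⟨m, hm⟩ => hn ⟨m, hm.symm⟩
    simp [hnd]
  · have h2 : (fun n : ℕ => (if N ∣ n then (qExpansion 1 ModularForm.discriminant).coeff (n / N)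
        else 0) • Function.Periodic.qParam 1 τ ^ n) ∘ (fun m : ℕ => N * m) =
        fun m : ℕ => (qExpansion 1 ModularForm.discriminant).coeff m •
          (Function.Periodic.qParam 1 τ ^ N) ^ m := by
      funext m
      simp only [Function.comp_apply, dvd_mul_right, if_true, Nat.mul_div_cancel_left _ hN,
        pow_mul]
    rw [h2]
    exact h1

theorem qExpansion_DeltaNFun_coeff (N : ℕ) [NeZero N] (n : ℕ) :
    (qExpansion 1 (DeltaNFun N)).coeff n =
      if N ∣ n then (qExpansion 1 ModularForm.discriminant).coeff (n / N) else 0 := by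
  have h := ModularFormClass.qExpansion_coeff_unique (h := 1) (f := DeltaN N)
    (c := fun n : ℕ => if N ∣ n then (qExpansion 1 ModularForm.discriminant).coeff (n / N) else 0)
    one_pos (CongruenceSubgroup.one_mem_strictPeriods_Gamma0 N)
    (fun τ => by rw [coe_DeltaN]; exact hasSum_DeltaNFun N τ) n
  rw [coe_DeltaN] at h
  exact h.symm

end Fermat.Agent.S23
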