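import Mathlib.NumberTheory.ModularForms.Discriminant

/-!
Comparison of decay rates of the modular discriminant along the imaginary axis.
-/

set_option autoImplicit false

namespace Fermat.Agent.S23

open UpperHalfPlane

/-- Two-sided exponential bounds for the discriminant near `i∞`. -/
theorem exists_discriminant_bounds :
    ∃ A : ℝ, ∀ w : ℍ, A ≤ w.im →
      1 / 2 * Real.exp (-2 * Real.pi * w.im) ≤ ‖ModularForm.discriminant w‖ ∧
      ‖ModularForm.discriminant w‖ ≤ 3 / 2 * Real.exp (-2 * Real.pi * w.im) := by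
  have hprod := ModularForm.tendsto_atImInfty_tprod_one_sub_eta_q_pow.eventually
    (Metric.ball_mem_nhds 1 (by norm_num : (0 : ℝ) < 1 / 2))
  rw [Filter.Eventually, atImInfty_mem] at hprod
  obtain ⟨A, hA⟩ := hprod
  refine ⟨A, fun w hw => ?_⟩
  have hτ := hA w hw
  have hτ : ‖∏' n, (1 - ModularForm.eta_q n (w : ℂ)) ^ 24 - 1‖ < 1 / 2 := by
    rw [← Complex.dist_eq]; exact hτ
  rw [ModularForm.discriminant_eq_q_prod, norm_mul]
  have hq_norm : ‖Function.Periodic.qParam 1 (w : ℂ)‖ = Real.exp (-2 * Real.pi * w.im) := by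
    simp [Function.Periodic.qParam, Complex.norm_exp]
  rw [hq_norm]
  have h1 := norm_sub_norm_le 1 (∏' n, (1 - ModularForm.eta_q n (w : ℂ)) ^ 24)
  have h2 := norm_sub_norm_le (∏' n, (1 - ModularForm.eta_q n (w : ℂ)) ^ 24) 1
  rw [norm_one] at h1 h2
  rw [norm_sub_rev] at h1
  have hlo : 1 / 2 ≤ ‖∏' n, (1 - ModularForm.eta_q n (w : ℂ)) ^ 24‖ := by linarith
  have hhi : ‖∏' n, (1 - ModularForm.eta_q n (w : ℂ)) ^ 24‖ ≤ 3 / 2 := by linarith
  have hpos : 0 ≤ Real.exp (-2 * Real.pi * w.im) := (Real.exp_pos _).le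
  constructor
  · calc 1 / 2 * Real.exp (-2 * Real.pi * w.im)
        = Real.exp (-2 * Real.pi * w.im) * (1 / 2) := by ring
      _ ≤ _ := mul_le_mul_of_nonneg_left hlo hpos
  · calc Real.exp (-2 * Real.pi * w.im) * ‖∏' n, (1 - ModularForm.eta_q n (w : ℂ)) ^ 24‖
        ≤ Real.exp (-2 * Real.pi * w.im) * (3 / 2) := mul_le_mul_of_nonneg_left hhi hpos
      _ = _ := by ring

theorem eq_one_of_discriminant_scaling (g N₁ : ℕ) (v : ℤ) (hg : 0 < g) (hN₁ : 0 < N₁)
    (h : ∀ z : ℍ, ((N₁ : ℂ) ^ 12)⁻¹ *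
        ModularForm.discriminant (ofComplex (((g : ℂ) * z + v) / N₁)) =
      ModularForm.discriminant (ofComplex (((g * N₁ : ℕ) : ℂ) * z))) : N₁ = 1 := by
  by_contra hne
  have hN2 : 2 ≤ N₁ := by omega
  obtain ⟨A, hA⟩ := exists_discriminant_bounds
  have hgR : (1 : ℝ) ≤ g := by exact_mod_cast hg
  have hNR : (2 : ℝ) ≤ N₁ := by exact_mod_cast hN2
  have hNpos : (0 : ℝ) < N₁ := by linarith
  -- the height at which we compare
  set y : ℝ := max (|A| * N₁ + 1) (3 * (N₁ : ℝ) ^ 12) with hy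
  have hy1 : |A| * N₁ + 1 ≤ y := le_max_left _ _
  have hy2 : 3 * (N₁ : ℝ) ^ 12 ≤ y := le_max_right _ _
  have hypos : 0 < y := by
    have : 0 ≤ |A| * N₁ := by positivity
    linarith
  have hAle : A ≤ |A| := le_abs_self A
  have hAN : |A| ≤ |A| * N₁ := by
    have : 0 ≤ |A| := abs_nonneg A
    nlinarith
  let z : ℍ := ⟨Complex.I * y, by simpa using hypos⟩
  have hz : (z : ℂ) = Complex.I * y := rfl
  -- the two points
  have him1 : ((((g : ℂ) * z + v) / N₁)).im = g * y / N₁ := by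
    rw [hz]
    have : ((g : ℂ) * (Complex.I * y) + v) / N₁
        = ((v : ℝ) / (N₁ : ℝ) : ℝ) + ((g : ℝ) * y / (N₁ : ℝ) : ℝ) * Complex.I := by
      have hN0 : (N₁ : ℂ) ≠ 0 := by exact_mod_cast hN₁.ne'
      push_cast
      field_simp
      ring
    rw [this, Complex.add_im, Complex.ofReal_im, Complex.mul_I_im, Complex.ofReal_re, zero_add]
  have him2 : ((((g * N₁ : ℕ) : ℂ) * z)).im = g * N₁ * y := by
    rw [hz]
    have : (((g * N₁ : ℕ) : ℂ) * (Complex.I * y))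
        = (((g : ℝ) * N₁ * y : ℝ) : ℂ) * Complex.I := by
      push_cast
      ring
    rw [this, Complex.mul_I_im, Complex.ofReal_re]
  have hpos1 : 0 < ((((g : ℂ) * z + v) / N₁)).im := by
    rw [him1]; positivity
  have hpos2 : 0 < ((((g * N₁ : ℕ) : ℂ) * z)).im := by
    rw [him2]; positivity
  have hz' := h z
  rw [ofComplex_apply_of_im_pos hpos1, ofComplex_apply_of_im_pos hpos2] at hz'
  set w₁ : ℍ := ⟨((g : ℂ) * z + v) / N₁, hpos1⟩ with hw₁
  set w₂ : ℍ := ⟨((g * N₁ : ℕ) : ℂ) * z, hpos2⟩ with hw₂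
  have hw1im : w₁.im = g * y / N₁ := him1
  have hw2im : w₂.im = g * N₁ * y := him2
  have hyN : |A| ≤ y / N₁ := by
    rw [le_div_iff₀ hNpos]; linarith
  have hA1 : A ≤ w₁.im := by
    rw [hw1im]
    have : y / N₁ ≤ g * y / N₁ := by
      apply div_le_div_of_nonneg_right _ hNpos.le
      nlinarith
    linarith
  have hA2 : A ≤ w₂.im := by
    rw [hw2im]
    have h1 : (1 : ℝ) ≤ g * N₁ := by nlinarith
    have : y ≤ g * N₁ * y := by nlinarith [mul_le_mul_of_nonneg_right h1 hypos.le]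
    linarith
  have hb1 := (hA w₁ hA1).1
  have hb2 := (hA w₂ hA2).2
  rw [hw1im] at hb1
  rw [hw2im] at hb2
  have hnorm := congrArg norm hz'
  rw [norm_mul, norm_inv, norm_pow, Complex.norm_natCast] at hnorm
  -- combine the bounds
  have hN12pos : (0 : ℝ) < (N₁ : ℝ) ^ 12 := by positivity
  have hcomb : 1 / 2 * Real.exp (-2 * Real.pi * (g * y / N₁))
      ≤ (N₁ : ℝ) ^ 12 * (3 / 2 * Real.exp (-2 * Real.pi * (g * N₁ * y))) := by
    have h3 : ‖ModularForm.discriminant w₁‖ = (N₁ : ℝ) ^ 12 * ‖ModularForm.discriminant w₂‖ := by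
      rw [← hnorm]; field_simp
    calc 1 / 2 * Real.exp (-2 * Real.pi * (g * y / N₁))
        ≤ ‖ModularForm.discriminant w₁‖ := hb1
      _ = (N₁ : ℝ) ^ 12 * ‖ModularForm.discriminant w₂‖ := h3
      _ ≤ (N₁ : ℝ) ^ 12 * (3 / 2 * Real.exp (-2 * Real.pi * (g * N₁ * y))) :=
          mul_le_mul_of_nonneg_left hb2 hN12pos.le
  -- `exp (2π g y (N₁ - 1/N₁)) ≤ 3 N₁ ^ 12`
  have hexp : Real.exp (2 * Real.pi * (g * N₁ * y) - 2 * Real.pi * (g * y / N₁))
      ≤ 3 * (N₁ : ℝ) ^ 12 := by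
    have e1 : Real.exp (2 * Real.pi * (g * N₁ * y) - 2 * Real.pi * (g * y / N₁))
        = Real.exp (-2 * Real.pi * (g * y / N₁)) * Real.exp (2 * Real.pi * (g * N₁ * y)) := by
      rw [← Real.exp_add]; congr 1; ring
    have e2 : Real.exp (-2 * Real.pi * (g * N₁ * y)) * Real.exp (2 * Real.pi * (g * N₁ * y))
        = 1 := by
      rw [← Real.exp_add]; simp
    have hE : 0 < Real.exp (2 * Real.pi * (g * N₁ * y)) := Real.exp_pos _
    have := mul_le_mul_of_nonneg_right hcomb hE.le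
    rw [e1]
    nlinarith [this, e2]
  have hlin : y ≤ 2 * Real.pi * (g * N₁ * y) - 2 * Real.pi * (g * y / N₁) := by
    have hpi : (2 : ℝ) ≤ Real.pi := Real.two_le_pi
    have h1 : (g : ℝ) * y / N₁ ≤ g * y / 2 := by
      apply div_le_div_of_nonneg_left (by positivity) (by norm_num) hNR
    have h2 : (g : ℝ) * y * 2 ≤ g * N₁ * y := by nlinarith [mul_pos (by linarith : (0 : ℝ) < g) hypos]
    have h3 : y ≤ g * y := by nlinarith
    have h4 : 0 ≤ (g : ℝ) * N₁ * y - g * y / N₁ - g * y := by linarith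
    have h5 : y ≤ (g : ℝ) * N₁ * y - g * y / N₁ := by linarith
    have h6 : 0 ≤ (g : ℝ) * N₁ * y - g * y / N₁ := by linarith
    nlinarith
  have hfinal : y + 1 ≤ 3 * (N₁ : ℝ) ^ 12 :=
    calc y + 1 ≤ Real.exp y := Real.add_one_le_exp y
      _ ≤ Real.exp (2 * Real.pi * (g * N₁ * y) - 2 * Real.pi * (g * y / N₁)) :=
          Real.exp_le_exp.mpr hlin
      _ ≤ 3 * (N₁ : ℝ) ^ 12 := hexp
  linarith

end Fermat.Agent.S23
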