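import Fermat.Agent.S23.TranslatesDefs
import Fermat.Agent.S23.DecayCompare

/-!
The stabilizer of `τ ↦ Δ(N τ)` in `SL(2, ℤ)` (weight 12 slash action) is `Γ₀(N)`.
-/

set_option autoImplicit false

namespace Fermat.Agent.S23

open UpperHalfPlane ModularForm SlashInvariantForm
open scoped MatrixGroups Manifold ModularForm

/-- Pointwise transformation law of the discriminant under `SL(2, ℤ)`. -/
theorem Stabilizer.discriminant_SL_smul (γ : SL(2, ℤ)) (w : ℍ) :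
    ModularForm.discriminant (γ • w) = ModularForm.discriminant w * denom γ w ^ (12 : ℕ) := by
  have h := congrFun
    (slash_action_generators_SL2Z discriminant_S_invariant discriminant_T_invariant γ) w
  rw [SL_slash_apply] at h
  have hne : denom γ w ≠ 0 := denom_ne_zero γ w
  rw [← h, mul_assoc, zpow_neg, ← zpow_natCast]
  have : (denom (γ : GL (Fin 2) ℝ) w ^ (12 : ℤ))⁻¹ *
      denom (γ : GL (Fin 2) ℝ) w ^ ((12 : ℕ) : ℤ) = 1 := by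
    norm_cast
    exact inv_mul_cancel₀ (pow_ne_zero _ hne)
  rw [this, mul_one]

/-- Arithmetic part of the Hermite normal form of `diag(N, 1) * γ`. -/
theorem Stabilizer.exists_hermite (N : ℕ) (hN : 0 < N) (a b c d : ℤ) (hdet : a * d - b * c = 1) :
    ∃ (g N₁ : ℕ) (c₁ β δ₀ v : ℤ), 0 < g ∧ 0 < N₁ ∧ N = g * N₁ ∧ c = g * c₁ ∧
      (N₁ : ℤ) * a * δ₀ - β * c₁ = 1 ∧ a * v + β = g * b ∧ c₁ * v + δ₀ * N₁ = d := by
  have hg : 0 < Int.gcd (N : ℤ) c := Int.gcd_pos_of_ne_zero_left _ (by exact_mod_cast hN.ne')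
  obtain ⟨N₁', hN₁'⟩ := Int.gcd_dvd_left (N : ℤ) c
  obtain ⟨c₁, hc₁⟩ := Int.gcd_dvd_right (N : ℤ) c
  have hbez := Int.gcd_eq_gcd_ab (N : ℤ) c
  generalize Int.gcd (N : ℤ) c = g at *
  generalize Int.gcdA (N : ℤ) c = A at *
  generalize Int.gcdB (N : ℤ) c = B at *
  have hg0 : (g : ℤ) ≠ 0 := by exact_mod_cast hg.ne'
  have hgpos : (0 : ℤ) < g := by exact_mod_cast hg
  have hN₁pos : 0 < N₁' := by
    have : (0 : ℤ) < g * N₁' := by rw [← hN₁']; exact_mod_cast hN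
    exact pos_of_mul_pos_right this hgpos.le
  lift N₁' to ℕ using hN₁pos.le
  have hbez' : (N₁' : ℤ) * A + c₁ * B = 1 := by
    apply mul_left_cancel₀ hg0
    linear_combination -hbez - A * hN₁' - B * hc₁
  refine ⟨g, N₁', c₁, N * A * b - B, A * d, B * d, hg, by exact_mod_cast hN₁pos,
    by exact_mod_cast hN₁', hc₁, ?_, ?_, ?_⟩
  · linear_combination hbez' + (N₁' : ℤ) * A * hdet + A * b * N₁' * hc₁ - A * b * c₁ * hN₁'
  · linear_combination B * hdet - b * hbez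
  · linear_combination d * hbez'

/-- Hermite form: the weight 12 slash of `Δ(N τ)` by `γ ∈ SL(2, ℤ)` is `N₁⁻¹² Δ((g τ + v) / N₁)`
with `g = gcd(N, c)`, `N = g N₁`. -/
theorem DeltaNFun_slash_apply (N : ℕ) [NeZero N] (γ : SL(2, ℤ)) :
    ∃ (g N₁ : ℕ) (v : ℤ), 0 < g ∧ 0 < N₁ ∧ N = g * N₁ ∧ ((g : ℤ) ∣ γ 1 0) ∧
      ∀ z : ℍ, (DeltaNFun N ∣[(12 : ℤ)] γ) z =
        ((N₁ : ℂ) ^ 12)⁻¹ *
          ModularForm.discriminant (ofComplex (((g : ℂ) * z + v) / N₁)) := by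
  have hdet : γ 0 0 * γ 1 1 - γ 0 1 * γ 1 0 = 1 := by
    have := γ.det_coe
    rw [Matrix.det_fin_two] at this
    exact this
  obtain ⟨g, N₁, c₁, β, δ₀, v, hg, hN₁, hN, hc, hbez, hv1, hv2⟩ :=
    Stabilizer.exists_hermite N (NeZero.pos N) _ _ _ _ hdet
  refine ⟨g, N₁, v, hg, hN₁, hN, ⟨c₁, hc⟩, fun z => ?_⟩
  have hgC : (g : ℂ) ≠ 0 := by exact_mod_cast hg.ne'
  have hN₁C : (N₁ : ℂ) ≠ 0 := by exact_mod_cast hN₁.ne'
  have hgR : (0 : ℝ) < g := by exact_mod_cast hg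
  have hN₁R : (0 : ℝ) < N₁ := by exact_mod_cast hN₁
  -- the auxiliary matrix
  let γ₀ : SL(2, ℤ) := ⟨!![N₁ * γ 0 0, β; c₁, δ₀], by
    rw [Matrix.det_fin_two_of]; linarith⟩
  have hwim : 0 < ((((g : ℂ) * z + v) / N₁)).im := by
    have : ((((g : ℂ) * z + v) / N₁)).im = g * z.im / N₁ := by
      simp [Complex.div_natCast_im]
    rw [this]
    have := z.im_pos
    positivity
  set w : ℍ := ofComplex (((g : ℂ) * z + v) / N₁) with hw
  have hwc : (w : ℂ) = ((g : ℂ) * z + v) / N₁ := by rw [hw, ofComplex_apply_of_im_pos hwim]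
  have hγz : ((γ • z : ℍ) : ℂ) =
      ((γ 0 0 : ℂ) * z + (γ 0 1 : ℂ)) / ((γ 1 0 : ℂ) * z + (γ 1 1 : ℂ)) := by
    rw [coe_specialLinearGroup_apply]; simp
  have hγ₀w : ((γ₀ • w : ℍ) : ℂ) =
      (((N₁ : ℂ) * (γ 0 0 : ℂ)) * w + (β : ℂ)) / ((c₁ : ℂ) * w + (δ₀ : ℂ)) := by
    rw [coe_specialLinearGroup_apply]; simp [γ₀]
  have hd1 : denom γ z = (γ 1 0 : ℂ) * z + (γ 1 1 : ℂ) := by
    simp [denom]
  have hd2 : denom γ₀ w = (c₁ : ℂ) * w + (δ₀ : ℂ) := by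
    have h2 : denom γ₀ w = (γ₀ 1 0 : ℂ) * w + (γ₀ 1 1 : ℂ) := by simp [denom]
    rw [h2]; simp [γ₀]
  have hd1ne : (γ 1 0 : ℂ) * z + (γ 1 1 : ℂ) ≠ 0 := hd1 ▸ denom_ne_zero γ z
  have hd2ne : (c₁ : ℂ) * w + (δ₀ : ℂ) ≠ 0 := hd2 ▸ denom_ne_zero γ₀ w
  -- integer identities cast to ℂ
  have hNC : (N : ℂ) = g * N₁ := by exact_mod_cast hN
  have hcC : (γ 1 0 : ℂ) = g * c₁ := by exact_mod_cast hc
  have hv1C : (γ 0 0 : ℂ) * v + β = g * (γ 0 1 : ℂ) := by exact_mod_cast hv1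
  have hv2C : (c₁ : ℂ) * v + δ₀ * N₁ = (γ 1 1 : ℂ) := by exact_mod_cast hv2
  have hden : (c₁ : ℂ) * w + (δ₀ : ℂ) = ((γ 1 0 : ℂ) * z + (γ 1 1 : ℂ)) / N₁ := by
    rw [hwc, ← hv2C, hcC]
    field_simp
    ring
  have hnum : ((N₁ : ℂ) * (γ 0 0 : ℂ)) * w + (β : ℂ) = g * ((γ 0 0 : ℂ) * z + (γ 0 1 : ℂ)) := by
    rw [hwc]
    field_simp
    linear_combination hv1C
  have key : ofComplex ((N : ℂ) * ((γ • z : ℍ) : ℂ)) = γ₀ • w := by
    have him : 0 < ((N : ℂ) * ((γ • z : ℍ) : ℂ)).im := by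
      have : ((N : ℂ) * ((γ • z : ℍ) : ℂ)).im = N * (γ • z : ℍ).im := by simp
      rw [this]
      have := (γ • z : ℍ).im_pos
      have hNR : (0 : ℝ) < N := by exact_mod_cast NeZero.pos N
      positivity
    apply UpperHalfPlane.ext
    rw [ofComplex_apply_of_im_pos him]
    show (N : ℂ) * ((γ • z : ℍ) : ℂ) = ((γ₀ • w : ℍ) : ℂ)
    rw [hγz, hγ₀w, hnum, hden, hNC]
    field_simp
  rw [SL_slash_apply]
  show ModularForm.discriminant (ofComplex ((N : ℂ) * ((γ • z : ℍ) : ℂ))) * _ = _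
  rw [key, Stabilizer.discriminant_SL_smul, hd1, hd2, hden, zpow_neg]
  have : ((γ 1 0 : ℂ) * z + (γ 1 1 : ℂ)) ^ (12 : ℤ) = ((γ 1 0 : ℂ) * z + (γ 1 1 : ℂ)) ^ (12 : ℕ) := by
    norm_cast
  rw [this]
  field_simp

/-- The stabilizer of `Δ(N τ)` in `SL(2, ℤ)` is contained in `Γ₀(N)`. -/
theorem mem_Gamma0_of_slash_DeltaNFun_eq (N : ℕ) [NeZero N] (γ : SL(2, ℤ))
    (h : DeltaNFun N ∣[(12 : ℤ)] γ = DeltaNFun N) : γ ∈ CongruenceSubgroup.Gamma0 N := by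
  obtain ⟨g, N₁, v, hg, hN₁, hN, hdvd, hz⟩ := DeltaNFun_slash_apply N γ
  have h1 : N₁ = 1 := by
    apply eq_one_of_discriminant_scaling g N₁ v hg hN₁
    intro z
    rw [← hz z, h, ← hN]
    rfl
  rw [CongruenceSubgroup.Gamma0_mem]
  subst h1
  rw [mul_one] at hN
  subst hN
  exact (ZMod.intCast_zmod_eq_zero_iff_dvd _ _).mpr hdvd

end Fermat.Agent.S23
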