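import Mathlib.RingTheory.Polynomial.Vieta
import Mathlib.Algebra.Ring.GeomSum
import Fermat.Agent.S23.Translates
import Fermat.Agent.S23.Stabilizer

/-!
Lagrange interpolation over the cosets of `Γ₀(N)` in `SL(2, ℤ)`: every modular form `f` on
`Γ₀(N)` satisfies `A · f = B` with `A ≠ 0`, where `A` and `B` are polynomials in
`Δ_N = Δ(N τ)` whose coefficients are level one modular forms.
-/

set_option autoImplicit false

namespace Fermat.Agent.S23

open Polynomial Finset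

section algebra

variable {ι : Type*} [Fintype ι] [DecidableEq ι]

/-- The divided difference `(P(X) - P(a)) / (X - a)`, written out through the coefficients
of `P` (`n` is a bound for the degree of `P`). -/
noncomputable def lagH (P : ℂ[X]) (n : ℕ) (a : ℂ) : ℂ[X] :=
  ∑ m ∈ range (n + 1), C (P.coeff m) * ∑ j ∈ range m, X ^ j * C a ^ (m - 1 - j)

theorem lagH_mul (P : ℂ[X]) (n : ℕ) (hn : P.natDegree ≤ n) (a : ℂ) :
    lagH P n a * (X - C a) = P - C (P.eval a) := by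
  unfold lagH
  rw [Finset.sum_mul]
  have h1 : ∀ m ∈ range (n + 1),
      C (P.coeff m) * (∑ j ∈ range m, X ^ j * C a ^ (m - 1 - j)) * (X - C a)
        = C (P.coeff m) * X ^ m - C (P.coeff m * a ^ m) := by
    intro m _
    rw [mul_assoc, geom_sum₂_mul, mul_sub, map_mul, map_pow]
  rw [Finset.sum_congr rfl h1, Finset.sum_sub_distrib]
  congr 1
  · conv_rhs => rw [P.as_sum_range' (n + 1) (Nat.lt_succ_of_le hn)]
    refine Finset.sum_congr rfl fun m _ => ?_
    rw [← C_mul_X_pow_eq_monomial]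
  · rw [← map_sum]
    congr 1
    rw [eval_eq_sum_range' (Nat.lt_succ_of_le hn)]

theorem lagH_eq_prod_erase (x : ι → ℂ) (i : ι) :
    lagH (∏ i', (X - C (x i'))) (Fintype.card ι) (x i)
      = ∏ i' ∈ univ.erase i, (X - C (x i')) := by
  have hdeg : (∏ i' : ι, (X - C (x i'))).natDegree ≤ Fintype.card ι := by
    rw [natDegree_prod_of_monic _ _ (fun i' _ => monic_X_sub_C (x i'))]
    simp
  have h := lagH_mul (∏ i', (X - C (x i'))) (Fintype.card ι) hdeg (x i)
  have hroot : (∏ i' : ι, (X - C (x i'))).eval (x i) = 0 := by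
    rw [eval_prod]
    exact Finset.prod_eq_zero (Finset.mem_univ i) (by simp)
  have h2 : (∏ i' : ι, (X - C (x i'))) - C ((∏ i' : ι, (X - C (x i'))).eval (x i))
      = (∏ i' ∈ univ.erase i, (X - C (x i'))) * (X - C (x i)) := by
    rw [hroot, map_zero, sub_zero]
    exact (Finset.prod_erase_mul _ _ (Finset.mem_univ i)).symm
  exact mul_right_cancel₀ (X_sub_C_ne_zero (x i)) (h.trans h2)

theorem eval_lagH (P : ℂ[X]) (n : ℕ) (a b : ℂ) :
    (lagH P n a).eval b
      = ∑ m ∈ range (n + 1), P.coeff m * ∑ j ∈ range m, b ^ j * a ^ (m - 1 - j) := by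
  simp [lagH, eval_finsetSum]

/-- The pointwise Lagrange interpolation identity: with `P = ∏ (X - x i)` and `c m` its
coefficients, `P'(x i₀) · y i₀ = ∑ j, (∑ m > j, c m · ∑ i, y i · x i ^ (m - 1 - j)) · x i₀ ^ j`,
and `P'(x i₀) = ∏ i ≠ i₀, (x i₀ - x i)`. -/
theorem lagrange_interp_identity (x y : ι → ℂ) (i₀ : ι) (c : ℕ → ℂ)
    (hc : ∀ m, c m = (∏ i, (X - C (x i))).coeff m) :
    (∑ j ∈ range (Fintype.card ι), ((j + 1 : ℕ) : ℂ) * c (j + 1) * x i₀ ^ j) * y i₀
      = ∑ j ∈ range (Fintype.card ι),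
          (∑ m ∈ Ioc j (Fintype.card ι), c m * ∑ i, y i * x i ^ (m - 1 - j)) * x i₀ ^ j ∧
    ∑ j ∈ range (Fintype.card ι), ((j + 1 : ℕ) : ℂ) * c (j + 1) * x i₀ ^ j
      = ∏ i ∈ univ.erase i₀, (x i₀ - x i) := by
  set μ := Fintype.card ι with hμ
  have hE : ∀ i, ∑ m ∈ range (μ + 1), c m * ∑ j ∈ range m, x i₀ ^ j * x i ^ (m - 1 - j)
      = ∏ i' ∈ univ.erase i, (x i₀ - x i') := by
    intro i
    have := congrArg (eval (x i₀)) (lagH_eq_prod_erase x i)
    rw [eval_lagH, eval_prod] at this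
    simp only [eval_sub, eval_X, eval_C] at this
    rw [← this]
    exact Finset.sum_congr rfl fun m _ => by rw [hc m]
  have hA : ∑ j ∈ range μ, ((j + 1 : ℕ) : ℂ) * c (j + 1) * x i₀ ^ j
      = ∏ i ∈ univ.erase i₀, (x i₀ - x i) := by
    rw [← hE i₀, Finset.sum_range_succ']
    simp only [range_zero, sum_empty, mul_zero, add_zero]
    refine Finset.sum_congr rfl fun j _ => ?_
    rw [geom_sum₂_self]
    simp only [Nat.add_sub_cancel]
    ring
  refine ⟨?_, hA⟩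
  rw [hA]
  have hB : ∑ i, y i * ∏ i' ∈ univ.erase i, (x i₀ - x i')
      = (∏ i ∈ univ.erase i₀, (x i₀ - x i)) * y i₀ := by
    rw [Finset.sum_eq_single i₀]
    · ring
    · intro i _ hi
      rw [Finset.prod_eq_zero (i := i₀) (by simp [Ne.symm hi]) (by simp), mul_zero]
    · simp
  rw [← hB]
  simp_rw [← hE, Finset.mul_sum, Finset.sum_mul]
  rw [Finset.sum_comm]
  simp_rw [Finset.sum_comm (s := (univ : Finset ι))]
  rw [Finset.sum_comm' (s' := fun j => Ioc j μ) (t' := range μ)]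
  · refine Finset.sum_congr rfl fun j _ => Finset.sum_congr rfl fun m _ =>
      Finset.sum_congr rfl fun i _ => ?_
    ring
  · intro m j
    simp only [mem_range, mem_Ioc]
    omega

end algebra

open UpperHalfPlane ModularForm SlashInvariantForm
open scoped MatrixGroups Manifold ModularForm

/-- `φ` is the underlying function of a level one modular form of weight `κ`. -/
def IsLevelOneMF (κ : ℤ) (φ : ℍ → ℂ) : Prop :=
  ∃ F : ModularForm 𝒮ℒ κ, ∀ z, F z = φ z

theorem IsLevelOneMF.of_eq {κ κ' : ℤ} {φ φ' : ℍ → ℂ} (h : IsLevelOneMF κ φ) (e : κ = κ')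
    (hφ : ∀ z, φ' z = φ z) : IsLevelOneMF κ' φ' := by
  subst e
  obtain ⟨F, hF⟩ := h
  exact ⟨F, fun z => by rw [hF, hφ]⟩

theorem IsLevelOneMF.const_mul {κ : ℤ} {φ : ℍ → ℂ} (h : IsLevelOneMF κ φ) (c : ℂ) :
    IsLevelOneMF κ (fun z => c * φ z) := by
  obtain ⟨F, hF⟩ := h
  exact ⟨c • F, fun z => by simp [hF]⟩

theorem IsLevelOneMF.mul {κ₁ κ₂ : ℤ} {φ₁ φ₂ : ℍ → ℂ} (h₁ : IsLevelOneMF κ₁ φ₁)
    (h₂ : IsLevelOneMF κ₂ φ₂) : IsLevelOneMF (κ₁ + κ₂) (fun z => φ₁ z * φ₂ z) := by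
  obtain ⟨F₁, hF₁⟩ := h₁
  obtain ⟨F₂, hF₂⟩ := h₂
  exact ⟨F₁.mul F₂, fun z => by simp [ModularForm.coe_mul, hF₁, hF₂]⟩

theorem IsLevelOneMF.sum {κ : ℤ} {α : Type*} (s : Finset α) {φ : α → ℍ → ℂ}
    (h : ∀ i ∈ s, IsLevelOneMF κ (φ i)) : IsLevelOneMF κ (fun z => ∑ i ∈ s, φ i z) := by
  classical
  induction s using Finset.induction_on with
  | empty => exact ⟨0, fun z => by simp⟩
  | insert a s ha ih =>
    obtain ⟨F, hF⟩ := h a (Finset.mem_insert_self a s)
    obtain ⟨G, hG⟩ := ih (fun i hi => h i (Finset.mem_insert_of_mem hi))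
    exact ⟨F + G, fun z => by simp [Finset.sum_insert ha, hF, hG]⟩

/-- A translate of `Δ_N` by a non-trivial coset is different from `Δ_N`. -/
theorem tr_ne_of_ne_one (N : ℕ) [NeZero N] (g : ModularForm (Γ0 N) 12) (hg : ⇑g = DeltaNFun N)
    (q : Q N) (hq : tr g q = ⇑g) : q = (QuotientGroup.mk 1 : Q N) := by
  obtain ⟨h, rfl⟩ := QuotientGroup.mk_surjective q
  obtain ⟨γ, hγ⟩ := h.2
  rw [tr_mk, hg] at hq
  have h1 : DeltaNFun N ∣[(12 : ℤ)] γ⁻¹ = DeltaNFun N := by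
    rw [ModularForm.SL_slash]
    convert hq using 2
    rw [← hγ]
    exact map_inv (Matrix.SpecialLinearGroup.mapGL ℝ) γ
  have h2 : γ ∈ CongruenceSubgroup.Gamma0 N :=
    inv_mem_iff.mp (mem_Gamma0_of_slash_DeltaNFun_eq N γ⁻¹ h1)
  rw [QuotientGroup.eq, mul_one, inv_mem_iff, Subgroup.mem_subgroupOf]
  exact ⟨γ, h2, hγ⟩

/-- **Lagrange interpolation over the cosets of `Γ₀(N)`.**  Every modular form `f` on `Γ₀(N)`
can be written as a fraction `B / A`, where `A ≠ 0` and `B` are polynomials in `Δ_N` with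
level one modular forms as coefficients (of the weights making `A`, `B` homogeneous). -/
theorem exists_fraction_rep (N : ℕ) [NeZero N] (g : ModularForm (Γ0 N) 12)
    (hg : ⇑g = DeltaNFun N) (k : ℤ) (f : ModularForm (Γ0 N) k) :
    ∃ (d : ℕ) (w : ℤ) (a : (i : Fin d) → ModularForm 𝒮ℒ (w - 12 * (i : ℕ)))
      (b : (i : Fin d) → ModularForm 𝒮ℒ (w + k - 12 * (i : ℕ))),
      (∃ z : ℍ, ∑ i : Fin d, a i z * DeltaNFun N z ^ (i : ℕ) ≠ 0) ∧
      ∀ z : ℍ, (∑ i : Fin d, a i z * DeltaNFun N z ^ (i : ℕ)) * f z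
        = ∑ i : Fin d, b i z * DeltaNFun N z ^ (i : ℕ) := by
  classical
  set μ := Fintype.card (Q N) with hμ
  set q₀ : Q N := QuotientGroup.mk 1 with hq₀
  let c : ℕ → ℍ → ℂ := fun m z => (∏ q : Q N, (X - C (tr g q z))).coeff m
  have hxq₀ : ∀ z, tr g q₀ z = DeltaNFun N z := fun z => by rw [hq₀, tr_one, hg]
  have hyq₀ : ∀ z, tr f q₀ z = f z := fun z => by rw [hq₀, tr_one]
  have hgfam : IsEquivFamily N 12 (tr g) := isEquivFamily_tr g
  have hffam : IsEquivFamily N k (tr f) := isEquivFamily_tr f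
  -- the coefficients of `∏ (X - x_q)` are level one modular forms
  have hcMF : ∀ m, m ≤ μ → IsLevelOneMF (12 * ((μ - m : ℕ) : ℤ)) (c m) := by
    intro m hm
    obtain ⟨F, hF⟩ := hgfam.exists_esymm (μ - m)
    refine (IsLevelOneMF.const_mul ⟨F, hF⟩ ((-1) ^ (μ - m))).of_eq rfl fun z => ?_
    have := Multiset.prod_X_sub_C_coeff (Finset.univ.val.map (fun q : Q N => tr g q z)) (k := m)
      (by simpa using hm)
    simp only [Multiset.map_map, Multiset.card_map, Finset.card_val, Finset.card_univ] at this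
    rw [← hμ] at this
    rw [← this]
    rfl
  -- the power sums twisted by the translates of `f` are level one modular forms
  have hTMF : ∀ t : ℕ, IsLevelOneMF (k + 12 * (t : ℤ)) (fun z => ∑ q, tr f q z * tr g q z ^ t) := by
    intro t
    obtain ⟨F, hF⟩ := (hffam.mul (hgfam.pow t)).exists_sum
    exact ⟨F, fun z => by rw [hF]; rfl⟩
  have haMF : ∀ i : Fin μ, IsLevelOneMF ((12 * (μ : ℤ) - 12) - 12 * ((i : ℕ) : ℤ))
      (fun z => (((i : ℕ) + 1 : ℕ) : ℂ) * c ((i : ℕ) + 1) z) := by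
    intro i
    have hi : (i : ℕ) + 1 ≤ μ := i.2
    refine ((hcMF ((i : ℕ) + 1) hi).const_mul _).of_eq ?_ (fun z => rfl)
    omega
  have hbMF : ∀ i : Fin μ, IsLevelOneMF ((12 * (μ : ℤ) - 12) + k - 12 * ((i : ℕ) : ℤ))
      (fun z => ∑ m ∈ Finset.Ioc (i : ℕ) μ,
        c m z * ∑ q, tr f q z * tr g q z ^ (m - 1 - (i : ℕ))) := by
    intro i
    refine IsLevelOneMF.sum _ (fun m hm => ?_)
    rw [Finset.mem_Ioc] at hm
    refine ((hcMF m hm.2).mul (hTMF (m - 1 - (i : ℕ)))).of_eq ?_ (fun z => rfl)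
    omega
  choose a ha using haMF
  choose b hb using hbMF
  have key : ∀ z, _ := fun z =>
    lagrange_interp_identity (fun q => tr g q z) (fun q => tr f q z) q₀ (fun m => c m z) (fun m => rfl)
  have hsumA : ∀ z, ∑ i : Fin μ, a i z * DeltaNFun N z ^ (i : ℕ)
      = ∑ j ∈ range μ, ((j + 1 : ℕ) : ℂ) * c (j + 1) z * tr g q₀ z ^ j := by
    intro z
    rw [← Fin.sum_univ_eq_sum_range (fun j => ((j + 1 : ℕ) : ℂ) * c (j + 1) z * tr g q₀ z ^ j) μ]
    exact Finset.sum_congr rfl fun i _ => by rw [ha, hxq₀]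
  refine ⟨μ, 12 * (μ : ℤ) - 12, a, b, ?_, ?_⟩
  · by_contra hcon
    push Not at hcon
    have hprod : ∏ q ∈ univ.erase q₀, (tr g q₀ - tr g q) = 0 := by
      funext z
      rw [Finset.prod_apply, Pi.zero_apply, ← hcon z, hsumA z, (key z).2]
      rfl
    rw [UpperHalfPlane.prod_eq_zero_iff
      (fun q _ => (hgfam.holo q₀).sub (hgfam.holo q))] at hprod
    obtain ⟨q, hq, hq0⟩ := hprod
    have hq' : tr g q = ⇑g := by
      rw [sub_eq_zero] at hq0
      rw [← hq0, hq₀, tr_one]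
    exact (Finset.ne_of_mem_erase hq) (tr_ne_of_ne_one N g hg q hq')
  · intro z
    rw [hsumA z, ← hyq₀ z, (key z).1,
      ← Fin.sum_univ_eq_sum_range (fun j => (∑ m ∈ Ioc j μ,
        c m z * ∑ q, tr f q z * tr g q z ^ (m - 1 - j)) * tr g q₀ z ^ j) μ]
    exact Finset.sum_congr rfl fun i _ => by rw [hb, hxq₀]

end Fermat.Agent.S23
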