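import Mathlib.RingTheory.PowerSeries.Ideal
import Mathlib.RingTheory.Polynomial.RationalRoot
import Mathlib.RingTheory.Localization.FractionRing
import Mathlib.Data.Complex.Basic
import Fermat.Agent.S23.Defs

/-!
Integer-coefficient power series are integrally closed in the sense needed for
bounded denominators.
-/

set_option autoImplicit false

namespace Fermat.Agent.S23

open PowerSeries

/-- The coefficientwise embedding of integer power series into complex power series. -/
noncomputable def intEmb : PowerSeries ℤ →+* PowerSeries ℂ :=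
  PowerSeries.map (Int.castRingHom ℂ)

theorem intEmb_injective : Function.Injective intEmb := by
  intro a b h
  ext n
  have h1 := congrArg (PowerSeries.coeff n) h
  simp only [intEmb, PowerSeries.coeff_map] at h1
  exact Int.cast_injective h1

theorem isIntPS_intEmb (a : PowerSeries ℤ) : IsIntPS (intEmb a) := by
  intro n
  exact ⟨PowerSeries.coeff n a, by simp [intEmb, PowerSeries.coeff_map]⟩

theorem isIntPS_iff_exists {A : PowerSeries ℂ} : IsIntPS A ↔ ∃ a : PowerSeries ℤ, intEmb a = A := by
  constructor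
  · intro hA
    choose m hm using hA
    refine ⟨PowerSeries.mk m, ?_⟩
    ext n
    simp [intEmb, PowerSeries.coeff_map, hm n]
  · rintro ⟨a, rfl⟩
    exact isIntPS_intEmb a

/-- Clearing denominators in a monic relation. -/
theorem scaled_relation {R : Type*} [CommRing R] (s u : R) (n : ℕ) (c : Fin n → R) :
    s ^ n * (u ^ n + ∑ i : Fin n, c i * u ^ (i : ℕ)) =
      (s * u) ^ n + ∑ i : Fin n, c i * s ^ (n - (i : ℕ)) * (s * u) ^ (i : ℕ) := by
  rw [mul_add, Finset.mul_sum, mul_pow]
  congr 1
  refine Finset.sum_congr rfl fun i _ => ?_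
  have hi : (i : ℕ) ≤ n := i.2.le
  have hsplit : s ^ n = s ^ (n - (i : ℕ)) * s ^ (i : ℕ) := by
    rw [← pow_add, Nat.sub_add_cancel hi]
  rw [hsplit, mul_pow]
  ring

theorem isIntPS_of_integral (u s : PowerSeries ℂ) (hs : IsIntPS s) (hs0 : s ≠ 0)
    (hsu : IsIntPS (s * u)) (n : ℕ) (hn : 0 < n) (c : Fin n → PowerSeries ℂ)
    (hc : ∀ i, IsIntPS (c i))
    (hrel : u ^ n + ∑ i : Fin n, c i * u ^ (i : ℕ) = 0) : IsIntPS u := by
  obtain ⟨s₀, rfl⟩ := isIntPS_iff_exists.mp hs
  obtain ⟨t₀, ht₀⟩ := isIntPS_iff_exists.mp hsu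
  have hc' : ∀ i, ∃ a : PowerSeries ℤ, intEmb a = c i := fun i => isIntPS_iff_exists.mp (hc i)
  choose c₀ hc₀ using hc'
  have hs₀ : s₀ ≠ 0 := by
    rintro rfl
    exact hs0 (map_zero _)
  -- the relation among integer power series
  have hrelB : t₀ ^ n + ∑ i : Fin n, c₀ i * s₀ ^ (n - (i : ℕ)) * t₀ ^ (i : ℕ) = 0 := by
    apply intEmb_injective
    have h := scaled_relation (intEmb s₀) u n c
    rw [hrel, mul_zero, ← ht₀] at h
    rw [map_zero, map_add, map_pow, map_sum]
    rw [h]
    congr 1
    refine Finset.sum_congr rfl fun i _ => ?_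
    rw [map_mul, map_mul, map_pow, map_pow, hc₀ i]
  -- pass to the fraction field
  let K := FractionRing (PowerSeries ℤ)
  let S : K := algebraMap (PowerSeries ℤ) K s₀
  let T : K := algebraMap (PowerSeries ℤ) K t₀
  have hS : S ≠ 0 := by
    intro h
    exact hs₀ ((IsFractionRing.injective (PowerSeries ℤ) K) (h.trans (map_zero _).symm))
  let w : K := T / S
  have hSw : S * w = T := by
    show S * (T / S) = T
    rw [mul_comm, div_mul_cancel₀ T hS]
  have hrelK : w ^ n + ∑ i : Fin n, algebraMap (PowerSeries ℤ) K (c₀ i) * w ^ (i : ℕ) = 0 := by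
    have h := scaled_relation S w n (fun i => algebraMap (PowerSeries ℤ) K (c₀ i))
    rw [hSw] at h
    have h2 : T ^ n + ∑ i : Fin n, algebraMap (PowerSeries ℤ) K (c₀ i) * S ^ (n - (i : ℕ)) *
        T ^ (i : ℕ) = 0 := by
      have h3 := congrArg (algebraMap (PowerSeries ℤ) K) hrelB
      rw [map_zero, map_add, map_pow, map_sum] at h3
      rw [← h3]
      congr 1
      refine Finset.sum_congr rfl fun i _ => ?_
      rw [map_mul, map_mul, map_pow, map_pow]
    rw [h2] at h
    rcases mul_eq_zero.mp h with h4 | h4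
    · exact absurd (pow_eq_zero_iff (Nat.pos_iff_ne_zero.mp hn) |>.mp h4) hS
    · exact h4
  -- the monic polynomial
  let q : Polynomial (PowerSeries ℤ) :=
    ∑ i : Fin n, Polynomial.C (c₀ i) * Polynomial.X ^ (i : ℕ)
  let p : Polynomial (PowerSeries ℤ) := Polynomial.X ^ n + q
  have hp : p.Monic := Polynomial.monic_X_pow_add (Polynomial.degree_sum_fin_lt c₀)
  have hroot : Polynomial.aeval w p = 0 := by
    simp only [p, q, map_add, map_pow, Polynomial.aeval_X, map_sum, map_mul, Polynomial.aeval_C]
    exact hrelK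
  obtain ⟨b, hb⟩ := isInteger_of_is_root_of_monic hp hroot
  have hbs : b * s₀ = t₀ := by
    apply IsFractionRing.injective (PowerSeries ℤ) K
    rw [map_mul, hb]
    show w * S = T
    rw [mul_comm]; exact hSw
  have hu : u = intEmb b := by
    apply mul_left_cancel₀ hs0
    rw [← ht₀, ← hbs, map_mul, mul_comm]
  rw [hu]
  exact isIntPS_intEmb b

end Fermat.Agent.S23
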