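import Mathlib.LinearAlgebra.Dual.Lemmas
import Mathlib.Algebra.Algebra.Bilinear
import Mathlib.Algebra.Algebra.Rat
import Fermat.Agent.S23.IntClosed

/-!
Bounded denominators for rational power series satisfying relations over the
complex span of the integer power series.
-/

set_option autoImplicit false

namespace Fermat.Agent.S23

open PowerSeries

/-! ### Closure properties of integer power series -/

theorem isIntPS_zero : IsIntPS 0 := fun n => ⟨0, by simp⟩

theorem isIntPS_one : IsIntPS 1 := by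
  rw [isIntPS_iff_exists]
  exact ⟨1, map_one _⟩

theorem IsIntPS.add {A B : PowerSeries ℂ} (hA : IsIntPS A) (hB : IsIntPS B) : IsIntPS (A + B) := by
  rw [isIntPS_iff_exists] at *
  obtain ⟨a, rfl⟩ := hA
  obtain ⟨b, rfl⟩ := hB
  exact ⟨a + b, map_add _ _ _⟩

theorem IsIntPS.mul {A B : PowerSeries ℂ} (hA : IsIntPS A) (hB : IsIntPS B) : IsIntPS (A * B) := by
  rw [isIntPS_iff_exists] at *
  obtain ⟨a, rfl⟩ := hA
  obtain ⟨b, rfl⟩ := hB
  exact ⟨a * b, map_mul _ _ _⟩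

theorem IsIntPS.neg {A : PowerSeries ℂ} (hA : IsIntPS A) : IsIntPS (-A) := by
  rw [isIntPS_iff_exists] at *
  obtain ⟨a, rfl⟩ := hA
  exact ⟨-a, map_neg _ _⟩

theorem IsIntPS.sub {A B : PowerSeries ℂ} (hA : IsIntPS A) (hB : IsIntPS B) : IsIntPS (A - B) := by
  rw [sub_eq_add_neg]
  exact hA.add hB.neg

theorem IsIntPS.pow {A : PowerSeries ℂ} (hA : IsIntPS A) (k : ℕ) : IsIntPS (A ^ k) := by
  rw [isIntPS_iff_exists] at *
  obtain ⟨a, rfl⟩ := hA
  exact ⟨a ^ k, map_pow _ _ _⟩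

theorem IsIntPS.intCast_smul {A : PowerSeries ℂ} (hA : IsIntPS A) (d : ℤ) :
    IsIntPS ((d : ℂ) • A) := by
  intro n
  obtain ⟨m, hm⟩ := hA n
  exact ⟨d * m, by simp [hm]⟩

theorem IsIntPS.natCast_smul {A : PowerSeries ℂ} (hA : IsIntPS A) (d : ℕ) :
    IsIntPS ((d : ℂ) • A) := by
  have h := hA.intCast_smul (d : ℤ)
  simpa using h

theorem isIntPS_sum {ι : Type*} (t : Finset ι) (f : ι → PowerSeries ℂ)
    (h : ∀ i ∈ t, IsIntPS (f i)) : IsIntPS (∑ i ∈ t, f i) := by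
  classical
  induction t using Finset.induction_on with
  | empty => simpa using isIntPS_zero
  | insert a t ha ih =>
    rw [Finset.sum_insert ha]
    exact (h a (Finset.mem_insert_self a t)).add
      (ih fun i hi => h i (Finset.mem_insert_of_mem hi))

/-! ### The span of the integer power series is a subalgebra -/

theorem isIntPS_mem_spanIntPS {A : PowerSeries ℂ} (hA : IsIntPS A) : A ∈ spanIntPS :=
  Submodule.subset_span hA

theorem one_mem_spanIntPS : (1 : PowerSeries ℂ) ∈ spanIntPS :=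
  isIntPS_mem_spanIntPS isIntPS_one

theorem mul_mem_spanIntPS {A B : PowerSeries ℂ} (hA : A ∈ spanIntPS) (hB : B ∈ spanIntPS) :
    A * B ∈ spanIntPS := by
  unfold spanIntPS at *
  induction hA using Submodule.span_induction with
  | mem x hx =>
    induction hB using Submodule.span_induction with
    | mem y hy => exact Submodule.subset_span (IsIntPS.mul hx hy)
    | zero => rw [mul_zero]; exact Submodule.zero_mem _
    | add y z _ _ hy hz => rw [mul_add]; exact Submodule.add_mem _ hy hz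
    | smul a y _ hy => rw [mul_smul_comm]; exact Submodule.smul_mem _ a hy
  | zero => rw [zero_mul]; exact Submodule.zero_mem _
  | add x y _ _ hx hy => rw [add_mul]; exact Submodule.add_mem _ hx hy
  | smul a x _ hx => rw [smul_mul_assoc]; exact Submodule.smul_mem _ a hx

theorem pow_mem_spanIntPS {A : PowerSeries ℂ} (hA : A ∈ spanIntPS) (k : ℕ) :
    A ^ k ∈ spanIntPS := by
  induction k with
  | zero => rw [pow_zero]; exact one_mem_spanIntPS
  | succ k ih => rw [pow_succ]; exact mul_mem_spanIntPS ih hA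

/-! ### Rational power series -/

/-- The coefficientwise embedding of rational power series into complex power series. -/
noncomputable def ratEmb : PowerSeries ℚ →+* PowerSeries ℂ :=
  PowerSeries.map (Rat.castHom ℂ)

theorem isRatPS_ratEmb (a : PowerSeries ℚ) : IsRatPS (ratEmb a) := by
  intro n
  exact ⟨PowerSeries.coeff n a, by simp [ratEmb, PowerSeries.coeff_map]⟩

theorem isRatPS_iff_exists {A : PowerSeries ℂ} : IsRatPS A ↔ ∃ a : PowerSeries ℚ, ratEmb a = A := by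
  constructor
  · intro hA
    choose r hr using hA
    refine ⟨PowerSeries.mk r, ?_⟩
    ext n
    simp [ratEmb, PowerSeries.coeff_map, hr n]
  · rintro ⟨a, rfl⟩
    exact isRatPS_ratEmb a

theorem IsRatPS.pow {A : PowerSeries ℂ} (hA : IsRatPS A) (k : ℕ) : IsRatPS (A ^ k) := by
  rw [isRatPS_iff_exists] at *
  obtain ⟨a, rfl⟩ := hA
  exact ⟨a ^ k, map_pow _ _ _⟩

theorem IsRatPS.mul {A B : PowerSeries ℂ} (hA : IsRatPS A) (hB : IsRatPS B) : IsRatPS (A * B) := by
  rw [isRatPS_iff_exists] at *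
  obtain ⟨a, rfl⟩ := hA
  obtain ⟨b, rfl⟩ := hB
  exact ⟨a * b, map_mul _ _ _⟩

theorem IsIntPS.isRatPS {A : PowerSeries ℂ} (hA : IsIntPS A) : IsRatPS A := by
  intro n
  obtain ⟨m, hm⟩ := hA n
  exact ⟨m, by simp [hm]⟩

/-! ### Coefficientwise application of a rational-linear functional -/

/-- Apply a `ℚ`-linear functional `ℂ → ℚ` to every coefficient. -/
noncomputable def coeffPush (π : ℂ →ₗ[ℚ] ℚ) : PowerSeries ℂ →+ PowerSeries ℂ where
  toFun A := PowerSeries.mk fun n => ((π (PowerSeries.coeff n A) : ℚ) : ℂ)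
  map_zero' := by
    ext n
    simp
  map_add' A B := by
    ext n
    simp

@[simp]
theorem coeff_coeffPush (π : ℂ →ₗ[ℚ] ℚ) (A : PowerSeries ℂ) (n : ℕ) :
    PowerSeries.coeff n (coeffPush π A) = ((π (PowerSeries.coeff n A) : ℚ) : ℂ) := by
  simp [coeffPush]

theorem pi_mul_ratCast (π : ℂ →ₗ[ℚ] ℚ) (x : ℂ) (r : ℚ) : π (x * (r : ℂ)) = π x * r := by
  have h : x * (r : ℂ) = r • x := by
    rw [Rat.smul_def, mul_comm]
  rw [h, map_smul, smul_eq_mul, mul_comm]

theorem coeffPush_mul_rat (π : ℂ →ₗ[ℚ] ℚ) (A : PowerSeries ℂ) {R : PowerSeries ℂ}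
    (hR : IsRatPS R) : coeffPush π (A * R) = coeffPush π A * R := by
  choose r hr using hR
  ext n
  rw [coeff_coeffPush, PowerSeries.coeff_mul, PowerSeries.coeff_mul, map_sum, Rat.cast_sum]
  refine Finset.sum_congr rfl fun x _ => ?_
  rw [coeff_coeffPush, hr x.2, pi_mul_ratCast, Rat.cast_mul]

theorem coeffPush_rat (π : ℂ →ₗ[ℚ] ℚ) (hπ : π 1 = 1) {R : PowerSeries ℂ} (hR : IsRatPS R) :
    coeffPush π R = R := by
  choose r hr using hR
  ext n
  rw [coeff_coeffPush, hr n]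
  have h := pi_mul_ratCast π 1 (r n)
  rw [one_mul, hπ, one_mul] at h
  rw [h]

theorem coeffPush_smul (π : ℂ →ₗ[ℚ] ℚ) (a : ℂ) (A : PowerSeries ℂ) :
    coeffPush π (a • A) = coeffPush (π ∘ₗ LinearMap.mulLeft ℚ a) A := by
  ext n
  simp

/-- Functionals have bounded denominators on the span of the integer power series. -/
theorem exists_den_coeffPush {A : PowerSeries ℂ} (hA : A ∈ spanIntPS) :
    ∀ π : ℂ →ₗ[ℚ] ℚ, ∃ D : ℕ, 0 < D ∧ IsIntPS ((D : ℂ) • coeffPush π A) := by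
  unfold spanIntPS at hA
  induction hA using Submodule.span_induction with
  | mem x hx =>
    intro π
    refine ⟨(π 1).den, (π 1).den_pos, ?_⟩
    intro n
    obtain ⟨m, hm⟩ := hx n
    refine ⟨m * (π 1).num, ?_⟩
    have h := pi_mul_ratCast π 1 (m : ℚ)
    rw [one_mul] at h
    have hm' : PowerSeries.coeff n x = (1 : ℂ) * ((m : ℚ) : ℂ) := by
      rw [hm]; simp
    rw [PowerSeries.coeff_smul, coeff_coeffPush, smul_eq_mul]
    have h1 : π (PowerSeries.coeff n x) = π 1 * m := by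
      rw [hm', one_mul]; exact h
    rw [h1]
    have h2 : (((π 1).den : ℚ)) * (π 1) = (π 1).num := Rat.den_mul_eq_num (π 1)
    have h3 : (((π 1).den : ℂ)) * (((π 1 : ℚ)) : ℂ) = (((π 1).num : ℤ) : ℂ) := by
      rw [← Rat.cast_natCast, ← Rat.cast_mul, h2, Rat.cast_intCast]
    push_cast
    rw [← mul_assoc, h3]
    ring
  | zero =>
    intro π
    exact ⟨1, one_pos, by simpa using isIntPS_zero⟩
  | add x y _ _ hx hy =>
    intro π
    obtain ⟨D₁, hD₁, h₁⟩ := hx π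
    obtain ⟨D₂, hD₂, h₂⟩ := hy π
    refine ⟨D₁ * D₂, Nat.mul_pos hD₁ hD₂, ?_⟩
    have e : ((D₁ * D₂ : ℕ) : ℂ) • coeffPush π (x + y) =
        (D₂ : ℂ) • ((D₁ : ℂ) • coeffPush π x) + (D₁ : ℂ) • ((D₂ : ℂ) • coeffPush π y) := by
      rw [map_add, smul_add, smul_smul, smul_smul]
      push_cast
      rw [mul_comm (D₂ : ℂ) (D₁ : ℂ)]
    rw [e]
    exact (h₁.natCast_smul D₂).add (h₂.natCast_smul D₁)
  | smul a x _ hx =>
    intro π
    rw [coeffPush_smul]
    exact hx _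

theorem exists_dual_ne_zero {x : ℂ} (hx : x ≠ 0) : ∃ π : ℂ →ₗ[ℚ] ℚ, π x ≠ 0 := by
  by_contra h
  have h' : ∀ π : Module.Dual ℚ ℂ, π x = 0 := fun π => by_contra fun hπ => h ⟨π, hπ⟩
  exact hx ((Module.forall_dual_apply_eq_zero_iff ℚ x).mp h')

theorem exists_dual_one : ∃ π : ℂ →ₗ[ℚ] ℚ, π 1 = 1 := by
  obtain ⟨π₀, hπ₀⟩ := exists_dual_ne_zero (one_ne_zero (α := ℂ))
  refine ⟨(π₀ 1)⁻¹ • π₀, ?_⟩
  rw [LinearMap.smul_apply, smul_eq_mul, inv_mul_cancel₀ hπ₀]

theorem bounded_denominators_of_relations (F : PowerSeries ℂ) (hF : IsRatPS F)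
    (s P : PowerSeries ℂ) (hs : s ∈ spanIntPS) (hP : P ∈ spanIntPS) (hs0 : s ≠ 0)
    (hsP : s * F = P) (n : ℕ) (hn : 0 < n) (c : Fin n → PowerSeries ℂ)
    (hc : ∀ j, c j ∈ spanIntPS)
    (hrel : F ^ n + ∑ j : Fin n, c j * F ^ (j : ℕ) = 0) :
    ∃ D : ℕ, 0 < D ∧ IsIntPS ((D : ℂ) • F) := by
  -- a nonzero coefficient of `s` and a functional seeing it
  obtain ⟨n₀, hn₀⟩ : ∃ n₀, PowerSeries.coeff n₀ s ≠ 0 := by
    by_contra h
    have h' : ∀ k, PowerSeries.coeff k s = 0 := fun k => by_contra fun hk => h ⟨k, hk⟩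
    exact hs0 (PowerSeries.ext fun k => by simpa using h' k)
  obtain ⟨π₁, hπ₁⟩ := exists_dual_ne_zero hn₀
  obtain ⟨D₁, hD₁, hD₁s⟩ := exists_den_coeffPush hs π₁
  obtain ⟨D₁', hD₁', hD₁P⟩ := exists_den_coeffPush hP π₁
  set s₁ : PowerSeries ℂ := ((D₁ * D₁' : ℕ) : ℂ) • coeffPush π₁ s with hs₁
  have hs₁int : IsIntPS s₁ := by
    have e : s₁ = (D₁' : ℂ) • ((D₁ : ℂ) • coeffPush π₁ s) := by
      rw [hs₁, smul_smul]; push_cast; rw [mul_comm]
    rw [e]
    exact hD₁s.natCast_smul D₁'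
  have hs₁0 : s₁ ≠ 0 := by
    intro h
    have h1 := congrArg (PowerSeries.coeff n₀) h
    rw [hs₁, PowerSeries.coeff_smul, coeff_coeffPush, map_zero, smul_eq_mul] at h1
    rcases mul_eq_zero.mp h1 with h2 | h2
    · have hpos : 0 < D₁ * D₁' := Nat.mul_pos hD₁ hD₁'
      exact hpos.ne' (by exact_mod_cast h2)
    · exact hπ₁ (by exact_mod_cast h2)
  have hs₁F : IsIntPS (s₁ * F) := by
    have e : s₁ * F = (D₁ : ℂ) • ((D₁' : ℂ) • coeffPush π₁ P) := by
      rw [hs₁, smul_mul_assoc, ← coeffPush_mul_rat π₁ s hF, hsP, smul_smul]; push_cast; rfl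
    rw [e]
    exact hD₁P.natCast_smul D₁
  -- a functional fixing the rationals
  obtain ⟨π₂, hπ₂⟩ := exists_dual_one
  have hrel₂ : F ^ n + ∑ j : Fin n, coeffPush π₂ (c j) * F ^ (j : ℕ) = 0 := by
    have h := congrArg (coeffPush π₂) hrel
    rw [map_zero, map_add, map_sum, coeffPush_rat π₂ hπ₂ (hF.pow n)] at h
    rw [← h]
    congr 1
    refine Finset.sum_congr rfl fun j _ => ?_
    rw [coeffPush_mul_rat π₂ (c j) (hF.pow j)]
  -- common denominator of the coefficients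
  have hden : ∀ j : Fin n, ∃ D : ℕ, 0 < D ∧ IsIntPS ((D : ℂ) • coeffPush π₂ (c j)) :=
    fun j => exists_den_coeffPush (hc j) π₂
  choose Dj hDjpos hDjint using hden
  set D₂ : ℕ := ∏ j : Fin n, Dj j with hD₂
  have hD₂pos : 0 < D₂ := Finset.prod_pos fun j _ => hDjpos j
  have hD₂int : ∀ j : Fin n, IsIntPS ((D₂ : ℂ) • coeffPush π₂ (c j)) := by
    intro j
    obtain ⟨e, he⟩ : Dj j ∣ D₂ := Finset.dvd_prod_of_mem _ (Finset.mem_univ j)
    have e' : (D₂ : ℂ) • coeffPush π₂ (c j) = (e : ℂ) • ((Dj j : ℂ) • coeffPush π₂ (c j)) := by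
      rw [smul_smul, he]; push_cast; rw [mul_comm]
    rw [e']
    exact (hDjint j).natCast_smul e
  set u : PowerSeries ℂ := (D₂ : ℂ) • F with hu
  refine ⟨D₂, hD₂pos, ?_⟩
  let c' : Fin n → PowerSeries ℂ := fun j =>
    ((D₂ ^ (n - (j : ℕ) - 1) : ℕ) : ℂ) • ((D₂ : ℂ) • coeffPush π₂ (c j))
  have hc' : ∀ j, IsIntPS (c' j) := fun j => (hD₂int j).natCast_smul _
  have hsu : IsIntPS (s₁ * u) := by
    rw [hu, mul_smul_comm]
    exact hs₁F.natCast_smul D₂
  have hrelu : u ^ n + ∑ j : Fin n, c' j * u ^ (j : ℕ) = 0 := by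
    have e : u ^ n + ∑ j : Fin n, c' j * u ^ (j : ℕ) =
        ((D₂ : ℂ) ^ n) • (F ^ n + ∑ j : Fin n, coeffPush π₂ (c j) * F ^ (j : ℕ)) := by
      rw [smul_add, Finset.smul_sum, hu, smul_pow]
      congr 1
      refine Finset.sum_congr rfl fun j _ => ?_
      have hj : (j : ℕ) < n := j.2
      have hsplit : (D₂ : ℂ) ^ n = (D₂ : ℂ) ^ (n - (j : ℕ) - 1) * (D₂ : ℂ) * (D₂ : ℂ) ^ (j : ℕ) := by
        rw [← pow_succ, ← pow_add]
        congr 1
        omega
      simp only [c']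
      rw [smul_pow, hsplit]
      simp only [smul_mul_assoc, mul_smul_comm, smul_smul]
      push_cast
      congr 1
      ring
    rw [e, hrel₂, smul_zero]
  exact isIntPS_of_integral u s₁ hs₁int hs₁0 hsu n hn c' hc' hrelu

end Fermat.Agent.S23
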