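import Mathlib

/-!
Holomorphic extension of a quotient that is integral over holomorphic functions, and bounds for
roots of monic polynomials.
-/

set_option autoImplicit false

open UpperHalfPlane Filter Topology
open scoped Manifold

namespace Fermat.Agent.S23

/-- A root of a monic polynomial is bounded by `1` plus the sum of the norms of the lower
coefficients. -/
theorem norm_le_of_monic_root (n : ℕ) (x : ℂ) (a : Fin n → ℂ)
    (h : x ^ n + ∑ j : Fin n, a j * x ^ (j : ℕ) = 0) : ‖x‖ ≤ 1 + ∑ j : Fin n, ‖a j‖ := by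
  have hS : 0 ≤ ∑ j : Fin n, ‖a j‖ := Finset.sum_nonneg fun _ _ => norm_nonneg _
  by_cases hx : ‖x‖ ≤ 1
  · linarith
  rw [not_le] at hx
  rcases Nat.eq_zero_or_pos n with rfl | hn
  · simp at h
  have hxn : x ^ n = - ∑ j : Fin n, a j * x ^ (j : ℕ) := eq_neg_of_add_eq_zero_left h
  have h1 : ‖x‖ ^ n ≤ (∑ j : Fin n, ‖a j‖) * ‖x‖ ^ (n - 1) := by
    calc ‖x‖ ^ n = ‖x ^ n‖ := (norm_pow _ _).symm
      _ = ‖∑ j : Fin n, a j * x ^ (j : ℕ)‖ := by rw [hxn, norm_neg]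
      _ ≤ ∑ j : Fin n, ‖a j * x ^ (j : ℕ)‖ := norm_sum_le _ _
      _ ≤ ∑ j : Fin n, ‖a j‖ * ‖x‖ ^ (n - 1) := by
          apply Finset.sum_le_sum
          intro j _
          rw [norm_mul, norm_pow]
          apply mul_le_mul_of_nonneg_left _ (norm_nonneg _)
          exact pow_le_pow_right₀ hx.le (by omega)
      _ = (∑ j : Fin n, ‖a j‖) * ‖x‖ ^ (n - 1) := by rw [Finset.sum_mul]
  have h2 : ‖x‖ ^ n = ‖x‖ * ‖x‖ ^ (n - 1) := by
    rw [← pow_succ']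
    congr 1
    omega
  have hpos : 0 < ‖x‖ ^ (n - 1) := pow_pos (by linarith) _
  have h3 : ‖x‖ ≤ ∑ j : Fin n, ‖a j‖ := by
    rw [h2] at h1
    exact le_of_mul_le_mul_right h1 hpos
  linarith

/-- The `n`-th power of a root of a monic polynomial of degree `n` is small when the lower
coefficients are small. -/
theorem norm_pow_le_of_monic_root (n : ℕ) (x : ℂ) (a : Fin n → ℂ)
    (h : x ^ n + ∑ j : Fin n, a j * x ^ (j : ℕ) = 0) :
    ‖x‖ ^ n ≤ (∑ j : Fin n, ‖a j‖) * (1 + ∑ j : Fin n, ‖a j‖) ^ n := by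
  have hS : 0 ≤ ∑ j : Fin n, ‖a j‖ := Finset.sum_nonneg fun _ _ => norm_nonneg _
  have hx := norm_le_of_monic_root n x a h
  have hxn : x ^ n = - ∑ j : Fin n, a j * x ^ (j : ℕ) := eq_neg_of_add_eq_zero_left h
  calc ‖x‖ ^ n = ‖x ^ n‖ := (norm_pow _ _).symm
    _ = ‖∑ j : Fin n, a j * x ^ (j : ℕ)‖ := by rw [hxn, norm_neg]
    _ ≤ ∑ j : Fin n, ‖a j * x ^ (j : ℕ)‖ := norm_sum_le _ _
    _ ≤ ∑ j : Fin n, ‖a j‖ * (1 + ∑ j : Fin n, ‖a j‖) ^ n := by
        apply Finset.sum_le_sum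
        intro j _
        rw [norm_mul, norm_pow]
        apply mul_le_mul_of_nonneg_left _ (norm_nonneg _)
        calc ‖x‖ ^ (j : ℕ) ≤ (1 + ∑ j : Fin n, ‖a j‖) ^ (j : ℕ) :=
              pow_le_pow_left₀ (norm_nonneg _) hx _
          _ ≤ (1 + ∑ j : Fin n, ‖a j‖) ^ n :=
              pow_le_pow_right₀ (by linarith) (le_of_lt j.2)
    _ = (∑ j : Fin n, ‖a j‖) * (1 + ∑ j : Fin n, ‖a j‖) ^ n := by rw [Finset.sum_mul]

/-- A function satisfying a monic relation whose lower coefficients tend to zero at `i∞`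
tends to zero at `i∞`. -/
theorem isZeroAtImInfty_of_monic_root {G : ℍ → ℂ} (n : ℕ) (hn : 0 < n) (c : Fin n → ℍ → ℂ)
    (hc : ∀ j, IsZeroAtImInfty (c j))
    (hrel : ∀ z : ℍ, G z ^ n + ∑ j : Fin n, c j z * G z ^ (j : ℕ) = 0) : IsZeroAtImInfty G := by
  have hS : Tendsto (fun z : ℍ => ∑ j : Fin n, ‖c j z‖) atImInfty (𝓝 0) := by
    have h1 : Tendsto (fun z : ℍ => ∑ j : Fin n, ‖c j z‖) atImInfty
        (𝓝 (∑ _j : Fin n, (0 : ℝ))) :=
      tendsto_finsetSum _ fun j _ => by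
        have h2 : Tendsto (c j) atImInfty (𝓝 0) := hc j
        simpa using h2.norm
    simpa using h1
  have hB : Tendsto (fun z : ℍ => (∑ j : Fin n, ‖c j z‖) * (1 + ∑ j : Fin n, ‖c j z‖) ^ n)
      atImInfty (𝓝 0) := by
    have h1 := hS.mul ((tendsto_const_nhds (x := (1 : ℝ))).add hS |>.pow n)
    simpa using h1
  have hGn : Tendsto (fun z : ℍ => ‖G z‖ ^ n) atImInfty (𝓝 0) :=
    squeeze_zero (fun z => by positivity)
      (fun z => norm_pow_le_of_monic_root n (G z) (fun j => c j z) (hrel z)) hB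
  have hn0 : (n : ℝ)⁻¹ ≠ 0 := inv_ne_zero (Nat.cast_ne_zero.mpr hn.ne')
  have hroot : Tendsto (fun z : ℍ => (‖G z‖ ^ n) ^ ((n : ℝ)⁻¹)) atImInfty (𝓝 0) := by
    have h1 : Tendsto (fun t : ℝ => t ^ ((n : ℝ)⁻¹)) (𝓝 0) (𝓝 ((0 : ℝ) ^ ((n : ℝ)⁻¹))) :=
      (Real.continuousAt_rpow_const 0 ((n : ℝ)⁻¹) (Or.inr (by positivity))).tendsto
    rw [Real.zero_rpow hn0] at h1
    exact h1.comp hGn
  have hG : Tendsto (fun z : ℍ => ‖G z‖) atImInfty (𝓝 0) := by
    refine hroot.congr fun z => ?_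
    exact Real.pow_rpow_inv_natCast (norm_nonneg _) hn.ne'
  exact tendsto_zero_iff_norm_tendsto_zero.mpr hG

/-- Core statement on an open preconnected subset of `ℂ`: if `p / σ` is integral over
holomorphic functions, it extends to a holomorphic function. -/
theorem exists_differentiableOn_quotient_of_integral {U : Set ℂ} (hU : IsOpen U)
    (hUc : IsPreconnected U) {p σ : ℂ → ℂ} (hp : DifferentiableOn ℂ p U)
    (hσ : DifferentiableOn ℂ σ U) (hσ0 : ∃ z ∈ U, σ z ≠ 0) (n : ℕ) (c : Fin n → ℂ → ℂ)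
    (hc : ∀ j, DifferentiableOn ℂ (c j) U)
    (hrel : ∀ z ∈ U, p z ^ n + ∑ j : Fin n, c j z * σ z ^ (n - (j : ℕ)) * p z ^ (j : ℕ) = 0) :
    ∃ g : ℂ → ℂ, DifferentiableOn ℂ g U ∧ (∀ z ∈ U, g z * σ z = p z) ∧
      ∀ z ∈ U, g z ^ n + ∑ j : Fin n, c j z * g z ^ (j : ℕ) = 0 := by
  classical
  set g₀ : ℂ → ℂ := fun z => p z / σ z with hg₀
  set g : ℂ → ℂ := fun z => limUnder (𝓝[≠] z) g₀ with hg
  have hσa : AnalyticOnNhd ℂ σ U := hσ.analyticOnNhd hU
  -- zeros of `σ` are isolated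
  have hB : ∀ z₀ ∈ U, ∀ᶠ z in 𝓝[≠] z₀, z ∈ U ∧ σ z ≠ 0 := by
    intro z₀ hz₀
    have h1 : ∀ᶠ z in 𝓝[≠] z₀, z ∈ U :=
      eventually_nhdsWithin_of_eventually_nhds (hU.eventually_mem hz₀)
    rcases (hσa z₀ hz₀).eventually_eq_zero_or_eventually_ne_zero with h | h
    · exfalso
      obtain ⟨w, hw, hw0⟩ := hσ0
      exact hw0 (hσa.eqOn_zero_of_preconnected_of_eventuallyEq_zero hUc hz₀ h hw)
    · exact h1.and h
  -- the monic relation for `g₀` away from the zeros of `σ`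
  have hrel₀ : ∀ z ∈ U, σ z ≠ 0 → g₀ z ^ n + ∑ j : Fin n, c j z * g₀ z ^ (j : ℕ) = 0 := by
    intro z hz hσz
    have hσn : σ z ^ n ≠ 0 := pow_ne_zero _ hσz
    apply mul_right_cancel₀ hσn
    rw [zero_mul, add_mul, Finset.sum_mul, ← hrel z hz]
    congr 1
    · simp only [hg₀, div_pow]
      exact div_mul_cancel₀ _ hσn
    · refine Finset.sum_congr rfl fun j _ => ?_
      have hj : σ z ^ n = σ z ^ (n - (j : ℕ)) * σ z ^ (j : ℕ) := by
        rw [← pow_add, Nat.sub_add_cancel (le_of_lt j.2)]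
      have hσj : σ z ^ (j : ℕ) ≠ 0 := pow_ne_zero _ hσz
      simp only [hg₀, div_pow]
      rw [hj]
      field_simp
  have hd₀ : ∀ z ∈ U, σ z ≠ 0 → DifferentiableAt ℂ g₀ z := fun z hz hσz =>
    (hp.differentiableAt (hU.mem_nhds hz)).div (hσ.differentiableAt (hU.mem_nhds hz)) hσz
  have hA : ∀ z ∈ U, σ z ≠ 0 → g z = g₀ z := fun z hz hσz =>
    ((hd₀ z hz hσz).continuousAt.tendsto.mono_left nhdsWithin_le_nhds).limUnder_eq
  have hcc : ∀ j, ∀ z ∈ U, ContinuousAt (c j) z := fun j z hz =>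
    ((hc j).differentiableAt (hU.mem_nhds hz)).continuousAt
  -- `g₀` has a limit at every point
  have hC : ∀ z₀ ∈ U, Tendsto g₀ (𝓝[≠] z₀) (𝓝 (g z₀)) := by
    intro z₀ hz₀
    apply Complex.tendsto_limUnder_of_differentiable_on_punctured_nhds_of_bounded_under
    · exact (hB z₀ hz₀).mono fun z hz => hd₀ z hz.1 hz.2
    · have hcont : Tendsto (fun z => ∑ j : Fin n, ‖c j z‖) (𝓝 z₀)
          (𝓝 (∑ j : Fin n, ‖c j z₀‖)) :=
        tendsto_finsetSum _ fun j _ => (hcc j z₀ hz₀).norm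
      have h1 : ∀ᶠ z in 𝓝[≠] z₀, ∑ j : Fin n, ‖c j z‖ < ∑ j : Fin n, ‖c j z₀‖ + 1 :=
        eventually_nhdsWithin_of_eventually_nhds
          (hcont (Iio_mem_nhds (lt_add_one _)))
      refine isBoundedUnder_of_eventually_le
        (a := 1 + (∑ j : Fin n, ‖c j z₀‖ + 1) + ‖g₀ z₀‖) ?_
      filter_upwards [hB z₀ hz₀, h1] with z hz hz1
      have h2 := norm_le_of_monic_root n (g₀ z) (fun j => c j z) (hrel₀ z hz.1 hz.2)
      calc ‖g₀ z - g₀ z₀‖ ≤ ‖g₀ z‖ + ‖g₀ z₀‖ := norm_sub_le _ _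
        _ ≤ 1 + (∑ j : Fin n, ‖c j z₀‖ + 1) + ‖g₀ z₀‖ := by linarith
  have hAev : ∀ z₀ ∈ U, ∀ᶠ z in 𝓝[≠] z₀, g₀ z = g z := fun z₀ hz₀ =>
    (hB z₀ hz₀).mono fun z hz => (hA z hz.1 hz.2).symm
  have hgc : ∀ z₀ ∈ U, ContinuousAt g z₀ := by
    intro z₀ hz₀
    rw [← continuousWithinAt_compl_self]
    exact (hC z₀ hz₀).congr' (hAev z₀ hz₀)
  have hW : IsOpen (U ∩ σ ⁻¹' {0}ᶜ) :=
    hσ.continuousOn.isOpen_inter_preimage hU isOpen_compl_singleton
  have hgd : DifferentiableOn ℂ g U := by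
    intro z₀ hz₀
    apply DifferentiableAt.differentiableWithinAt
    apply AnalyticAt.differentiableAt
    apply Complex.analyticAt_of_differentiable_on_punctured_nhds_of_continuousAt _ (hgc z₀ hz₀)
    refine (hB z₀ hz₀).mono fun z hz => ?_
    have hzW : U ∩ σ ⁻¹' {0}ᶜ ∈ 𝓝 z := hW.mem_nhds ⟨hz.1, hz.2⟩
    have heq : g =ᶠ[𝓝 z] g₀ := by
      filter_upwards [hzW] with w hw
      exact hA w hw.1 hw.2
    exact (hd₀ z hz.1 hz.2).congr_of_eventuallyEq heq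
  refine ⟨g, hgd, ?_, ?_⟩
  · intro z hz
    by_cases hσz : σ z = 0
    · have h1 := hrel z hz
      have h2 : ∑ j : Fin n, c j z * σ z ^ (n - (j : ℕ)) * p z ^ (j : ℕ) = 0 := by
        refine Finset.sum_eq_zero fun j _ => ?_
        rw [hσz, zero_pow (Nat.sub_ne_zero_of_lt j.2), mul_zero, zero_mul]
      rw [h2, add_zero] at h1
      rw [hσz, mul_zero, eq_zero_of_pow_eq_zero h1]
    · rw [hA z hz hσz]
      exact div_mul_cancel₀ _ hσz
  · intro z hz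
    have hsum : Tendsto (fun w => ∑ j : Fin n, c j w * g w ^ (j : ℕ)) (𝓝 z)
        (𝓝 (∑ j : Fin n, c j z * g z ^ (j : ℕ))) :=
      tendsto_finsetSum _ fun j _ => (hcc j z hz).mul ((hgc z hz).pow _)
    have hRc : Tendsto (fun w => g w ^ n + ∑ j : Fin n, c j w * g w ^ (j : ℕ)) (𝓝 z)
        (𝓝 (g z ^ n + ∑ j : Fin n, c j z * g z ^ (j : ℕ))) :=
      ((hgc z hz).pow n).add hsum
    have hR0 : ∀ᶠ w in 𝓝[≠] z, (fun w => g w ^ n + ∑ j : Fin n, c j w * g w ^ (j : ℕ)) w = 0 := by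
      refine (hB z hz).mono fun w hw => ?_
      show g w ^ n + ∑ j : Fin n, c j w * g w ^ (j : ℕ) = 0
      rw [hA w hw.1 hw.2]
      exact hrel₀ w hw.1 hw.2
    have h1 : Tendsto (fun w => g w ^ n + ∑ j : Fin n, c j w * g w ^ (j : ℕ)) (𝓝[≠] z)
        (𝓝 (g z ^ n + ∑ j : Fin n, c j z * g z ^ (j : ℕ))) :=
      hRc.mono_left nhdsWithin_le_nhds
    have h2 : Tendsto (fun w => g w ^ n + ∑ j : Fin n, c j w * g w ^ (j : ℕ)) (𝓝[≠] z)
        (𝓝 0) := tendsto_const_nhds.congr' (hR0.mono fun w hw => hw.symm)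
    exact tendsto_nhds_unique h1 h2

/-- If `P / s` is integral over holomorphic functions on the upper half plane (relation cleared
of denominators), then it extends to a holomorphic function satisfying the monic relation. -/
theorem exists_mdiff_quotient_of_integral {P s : ℍ → ℂ} (hP : MDiff P) (hs : MDiff s)
    (hs0 : s ≠ 0) (n : ℕ) (c : Fin n → ℍ → ℂ) (hc : ∀ j, MDiff (c j))
    (hrel : ∀ z : ℍ,
      P z ^ n + ∑ j : Fin n, c j z * s z ^ (n - (j : ℕ)) * P z ^ (j : ℕ) = 0) :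
    ∃ G : ℍ → ℂ, MDiff G ∧ (∀ z, G z * s z = P z) ∧
      ∀ z : ℍ, G z ^ n + ∑ j : Fin n, c j z * G z ^ (j : ℕ) = 0 := by
  have hU : IsOpen {z : ℂ | 0 < z.im} := isOpen_upperHalfPlaneSet
  have hUc : IsPreconnected {z : ℂ | 0 < z.im} := (convex_halfSpace_im_gt 0).isPreconnected
  obtain ⟨z₁, hz₁⟩ : ∃ z, s z ≠ 0 := by
    by_contra h
    exact hs0 (funext fun z => not_not.mp fun hz => h ⟨z, hz⟩)
  obtain ⟨g, hg, hgs, hgrel⟩ := exists_differentiableOn_quotient_of_integral hU hUc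
    (mdifferentiable_iff.mp hP) (mdifferentiable_iff.mp hs)
    ⟨(z₁ : ℂ), z₁.im_pos, by simpa [ofComplex_apply] using hz₁⟩ n (fun j => c j ∘ ofComplex)
    (fun j => mdifferentiable_iff.mp (hc j))
    (fun z _ => by simpa using hrel (ofComplex z))
  refine ⟨fun z => g (z : ℂ), ?_, ?_, ?_⟩
  · rw [mdifferentiable_iff]
    refine hg.congr fun z hz => ?_
    simp [Function.comp, ofComplex_apply_of_im_pos hz]
  · intro z
    have h1 := hgs (z : ℂ) z.im_pos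
    simpa [ofComplex_apply] using h1
  · intro z
    have h1 := hgrel (z : ℂ) z.im_pos
    simpa [ofComplex_apply] using h1

end Fermat.Agent.S23
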