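import Fermat.Agent.S23.BoundedDenoms
import Mathlib.NumberTheory.ModularForms.LevelOne.GradedRing

/-!
Level-one modular forms: integral structure of the graded ring of level `1`
(`E₄`, `E₆`, `1728 Δ` have integral `q`-expansions, every level-one form is a complex
combination of forms with integral `q`-expansion, Galois conjugates exist).
-/

set_option autoImplicit false

namespace Fermat.Agent.S23

open UpperHalfPlane ModularForm EisensteinSeries
open scoped MatrixGroups

theorem isIntPS_qExpansion_E₄ : IsIntPS (qExpansion 1 E₄) := by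
  intro m
  rw [E_qExpansion_coeff _ ⟨2, rfl⟩ m]
  by_cases hm : m = 0
  · exact ⟨1, by simp [hm]⟩
  · refine ⟨240 * (ArithmeticFunction.sigma 3 m : ℤ), ?_⟩
    rw [if_neg hm, show bernoulli 4 = -1 / 30 by decide +kernel]
    push_cast
    norm_num

theorem isIntPS_qExpansion_E₆ : IsIntPS (qExpansion 1 E₆) := by
  intro m
  rw [E_qExpansion_coeff _ ⟨3, rfl⟩ m]
  by_cases hm : m = 0
  · exact ⟨1, by simp [hm]⟩
  · refine ⟨-504 * (ArithmeticFunction.sigma 5 m : ℤ), ?_⟩
    rw [if_neg hm, show bernoulli 6 = 1 / 42 by decide +kernel]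
    push_cast
    norm_num

theorem smul_qExpansion_discriminant_eq :
    (1728 : ℂ) • qExpansion 1 ModularForm.discriminant
      = qExpansion 1 E₄ ^ 3 - qExpansion 1 E₆ ^ 2 := by
  have h1 : ((1728 : ℂ) • CuspForm.discriminant : ℍ → ℂ)
      = (ModularForm.mcast (by decide) (E₄.pow 3) - ModularForm.mcast (by decide) (E₆.pow 2)
          : ModularForm 𝒮ℒ 12) := by
    funext z
    have := ModularForm.discriminant_eq_E₄_cube_sub_E₆_sq z
    simp only [ModularForm.coe_mcast, ModularForm.coe_pow, sub_apply, Pi.pow_apply,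
      Pi.smul_apply, smul_eq_mul, CuspForm.coe_discriminant]
    rw [this]
    ring
  have h2 := ModularForm.qExpansion_smul one_pos one_mem_strictPeriods_SL (1728 : ℂ)
      CuspForm.discriminant
  rw [CuspForm.coe_discriminant] at h2
  rw [← h2, ← CuspForm.coe_discriminant, h1]
  simp only [FunLike.coe_sub, ModularForm.coe_mcast,
    ModularForm.qExpansion_sub one_pos one_mem_strictPeriods_SL,
    ModularForm.qExpansion_pow one_pos one_mem_strictPeriods_SL]

theorem isIntPS_qExpansion_smul_discriminant :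
    IsIntPS ((1728 : ℂ) • qExpansion 1 ModularForm.discriminant) := by
  rw [smul_qExpansion_discriminant_eq]
  exact (isIntPS_qExpansion_E₄.pow 3).sub (isIntPS_qExpansion_E₆.pow 2)

theorem qExpansion_discriminant_eq_smul :
    qExpansion 1 ModularForm.discriminant
      = (1 / 1728 : ℂ) • ((1728 : ℂ) • qExpansion 1 ModularForm.discriminant) := by
  rw [smul_smul]
  norm_num

theorem isRatPS_qExpansion_discriminant : IsRatPS (qExpansion 1 ModularForm.discriminant) := by
  intro n
  obtain ⟨m, hm⟩ := isIntPS_qExpansion_smul_discriminant n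
  refine ⟨(m : ℚ) / 1728, ?_⟩
  rw [qExpansion_discriminant_eq_smul, PowerSeries.coeff_smul, hm]
  push_cast
  ring

theorem qExpansion_discriminant_mem_spanIntPS :
    qExpansion 1 ModularForm.discriminant ∈ spanIntPS := by
  rw [qExpansion_discriminant_eq_smul]
  exact Submodule.smul_mem _ _ (isIntPS_mem_spanIntPS isIntPS_qExpansion_smul_discriminant)

/-- The q-expansion as a linear map on level-one forms of weight `w`. -/
noncomputable def qExpLin (w : ℤ) : ModularForm 𝒮ℒ w →ₗ[ℂ] PowerSeries ℂ where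
  toFun f := qExpansion 1 f
  map_add' f g := ModularForm.qExpansion_add one_pos one_mem_strictPeriods_SL f g
  map_smul' c f := ModularForm.qExpansion_smul one_pos one_mem_strictPeriods_SL c f

theorem qExpLin_apply (w : ℤ) (f : ModularForm 𝒮ℒ w) : qExpLin w f = qExpansion 1 f := rfl

/-- The span of the level-one forms of weight `w` with integral q-expansion. -/
noncomputable def intSpan (w : ℤ) : Submodule ℂ (ModularForm 𝒮ℒ w) :=
  Submodule.span ℂ {b | IsIntPS (qExpansion 1 b)}

/-- Multiplication by the discriminant, as a linear map raising the weight by `12`. -/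
noncomputable def mulDelta (w : ℤ) : ModularForm 𝒮ℒ (w - 12) →ₗ[ℂ] ModularForm 𝒮ℒ w :=
  CuspForm.toModularFormₗ ∘ₗ (CuspForm.discriminantEquiv (k := w)).symm.toLinearMap

theorem mulDelta_apply (w : ℤ) (G : ModularForm 𝒮ℒ (w - 12)) (z : ℍ) :
    mulDelta w G z = ModularForm.discriminant z * G z := rfl

theorem qExpansion_mulDelta (w : ℤ) (G : ModularForm 𝒮ℒ (w - 12)) :
    qExpansion 1 (mulDelta w G) = qExpansion 1 ModularForm.discriminant * qExpansion 1 G := by
  have h : (mulDelta w G : ℍ → ℂ) = (CuspForm.discriminant : ℍ → ℂ) * (G : ℍ → ℂ) := by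
    funext z
    rfl
  rw [h, ModularForm.qExpansion_mul_coe one_pos one_mem_strictPeriods_SL CuspForm.discriminant G,
    CuspForm.coe_discriminant]

theorem mulDelta_mem_intSpan (w : ℤ) (G : ModularForm 𝒮ℒ (w - 12)) (hG : G ∈ intSpan (w - 12)) :
    mulDelta w G ∈ intSpan w := by
  have hle : intSpan (w - 12) ≤ (intSpan w).comap (mulDelta w) := by
    refine Submodule.span_le.mpr ?_
    intro b hb
    have hb' : IsIntPS (qExpansion 1 b) := hb
    change mulDelta w b ∈ intSpan w
    have h1 : IsIntPS (qExpansion 1 ((1728 : ℂ) • mulDelta w b : ModularForm 𝒮ℒ w)) := by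
      have : qExpansion 1 ((1728 : ℂ) • mulDelta w b : ModularForm 𝒮ℒ w)
          = ((1728 : ℂ) • qExpansion 1 ModularForm.discriminant) * qExpansion 1 b := by
        rw [← qExpLin_apply, map_smul, qExpLin_apply, qExpansion_mulDelta, smul_mul_assoc]
      rw [this]
      exact isIntPS_qExpansion_smul_discriminant.mul hb'
    have h2 : mulDelta w b = (1 / 1728 : ℂ) • ((1728 : ℂ) • mulDelta w b) := by
      rw [smul_smul]
      norm_num
    rw [h2]
    exact Submodule.smul_mem _ _ (Submodule.subset_span h1)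
  exact hle hG

theorem mem_intSpan_aux : ∀ (n : ℕ) (w : ℤ), w.toNat = n →
    ∀ F : ModularForm 𝒮ℒ w, F ∈ intSpan w := by
  intro n
  induction n using Nat.strong_induction_on with
  | _ n ih =>
    intro w hw F
    rcases lt_or_ge w 0 with hneg | hnn
    · have : F = 0 := rank_zero_iff_forall_zero.mp (levelOne_neg_weight_rank_zero hneg) F
      rw [this]
      exact Submodule.zero_mem _
    rcases Int.even_or_odd w with hev | hodd
    swap
    · rw [levelOne_odd_weight_eq_zero hodd F]
      exact Submodule.zero_mem _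
    rcases lt_or_ge w 4 with hlt | hge
    · have h02 : w = 0 ∨ w = 2 := by
        obtain ⟨k, hk⟩ := hev
        omega
      rcases h02 with rfl | rfl
      · obtain ⟨c, hc⟩ := ModularFormClass.levelOne_weight_zero_const F
        have hF : F = c • (1 : ModularForm 𝒮ℒ 0) := by
          ext z
          simp [hc]
        rw [hF]
        refine Submodule.smul_mem _ _ (Submodule.subset_span ?_)
        change IsIntPS (qExpansion 1 (1 : ModularForm 𝒮ℒ 0))
        rw [ModularForm.qExpansion_one]
        exact isIntPS_one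
      · rw [rank_zero_iff_forall_zero.mp levelOne_weight_two_rank_zero F]
        exact Submodule.zero_mem _
    · obtain ⟨a, b, hab⟩ : ∃ a b : ℕ, (a : ℤ) * 4 + (b : ℤ) * 6 = w := by
        obtain ⟨k, hk⟩ := hev
        refine ⟨(k.toNat - 3 * (k.toNat % 2)) / 2, k.toNat % 2, ?_⟩
        omega
      set G₀ : ModularForm 𝒮ℒ w := ModularForm.mcast hab ((E₄.pow a).mul (E₆.pow b)) with hG₀
      have hq : qExpansion 1 G₀ = qExpansion 1 E₄ ^ a * qExpansion 1 E₆ ^ b := by
        rw [hG₀, ModularForm.qExpansion_mcast,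
          ModularForm.qExpansion_mul one_pos one_mem_strictPeriods_SL,
          ModularForm.qExpansion_pow one_pos one_mem_strictPeriods_SL,
          ModularForm.qExpansion_pow one_pos one_mem_strictPeriods_SL]
      have hG₀int : IsIntPS (qExpansion 1 G₀) := by
        rw [hq]
        exact (isIntPS_qExpansion_E₄.pow a).mul (isIntPS_qExpansion_E₆.pow b)
      have hG₀c : (qExpansion 1 G₀).coeff 0 = 1 := by
        have h4 := E_qExpansion_coeff_zero (k := 4) (by norm_num) ⟨2, rfl⟩
        have h6 := E_qExpansion_coeff_zero (k := 6) (by norm_num) ⟨3, rfl⟩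
        rw [PowerSeries.coeff_zero_eq_constantCoeff_apply] at h4 h6 ⊢
        rw [hq, map_mul, map_pow, map_pow, h4, h6, one_pow, one_pow, one_mul]
      obtain ⟨H, hH⟩ : ∃ H : ModularForm 𝒮ℒ w, H = F - (qExpansion 1 F).coeff 0 • G₀ := ⟨_, rfl⟩
      have hH0 : (qExpansion 1 H).coeff 0 = 0 := by
        rw [hH]
        exact (isCuspForm_iff_coeffZero_eq_zero _).mp (sub_smul_isCuspForm F G₀ hG₀c)
      have hHmem : H ∈ intSpan w := by
        have hmem := mulDelta_mem_intSpan w (CuspForm.discriminantEquiv (toCuspForm H hH0))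
          (ih (w - 12).toNat (by omega) (w - 12) rfl _)
        have heq : mulDelta w (CuspForm.discriminantEquiv (toCuspForm H hH0)) = H := by
          ext z
          rw [mulDelta_apply, discriminant_mul_discriminantEquiv_apply]
          rfl
        rw [← heq]
        exact hmem
      have hF : F = H + (qExpansion 1 F).coeff 0 • G₀ := by
        rw [hH, sub_add_cancel]
      rw [hF]
      exact Submodule.add_mem _ hHmem (Submodule.smul_mem _ _ (Submodule.subset_span hG₀int))

theorem mem_intSpan (w : ℤ) (F : ModularForm 𝒮ℒ w) : F ∈ intSpan w :=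
  mem_intSpan_aux _ w rfl F

theorem levelOne_exists_int_decomp (w : ℤ) (F : ModularForm 𝒮ℒ w) :
    ∃ (m : ℕ) (a : Fin m → ℂ) (b : Fin m → ModularForm 𝒮ℒ w),
      (∀ i, IsIntPS (qExpansion 1 (b i))) ∧ F = ∑ i, a i • b i := by
  have h := mem_intSpan w F
  rw [intSpan, Submodule.mem_span_set'] at h
  obtain ⟨m, a, g, hg⟩ := h
  exact ⟨m, a, fun i => (g i : ModularForm 𝒮ℒ w), fun i => (g i).2, hg.symm⟩

theorem map_eq_self_of_isIntPS {A : PowerSeries ℂ} (hA : IsIntPS A) (σ : ℂ →+* ℂ) :
    PowerSeries.map σ A = A := by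
  ext n
  obtain ⟨m, hm⟩ := hA n
  rw [PowerSeries.coeff_map, hm, map_intCast]

theorem map_eq_self_of_isRatPS {A : PowerSeries ℂ} (hA : IsRatPS A) (σ : ℂ →+* ℂ) :
    PowerSeries.map σ A = A := by
  ext n
  obtain ⟨r, hr⟩ := hA n
  rw [PowerSeries.coeff_map, hr, map_ratCast]

theorem map_smul_powerSeries (σ : ℂ →+* ℂ) (a : ℂ) (A : PowerSeries ℂ) :
    PowerSeries.map σ (a • A) = σ a • PowerSeries.map σ A := by
  ext n
  rw [PowerSeries.coeff_map, PowerSeries.coeff_smul, PowerSeries.coeff_smul,
    PowerSeries.coeff_map, smul_eq_mul, smul_eq_mul, map_mul]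

theorem levelOne_exists_conj (w : ℤ) (σ : ℂ →+* ℂ) (F : ModularForm 𝒮ℒ w) :
    ∃ F' : ModularForm 𝒮ℒ w, qExpansion 1 F' = PowerSeries.map σ (qExpansion 1 F) := by
  obtain ⟨m, a, b, hb, rfl⟩ := levelOne_exists_int_decomp w F
  refine ⟨∑ i, σ (a i) • b i, ?_⟩
  rw [← qExpLin_apply, ← qExpLin_apply, map_sum, map_sum, map_sum]
  refine Finset.sum_congr rfl fun i _ => ?_
  rw [map_smul, map_smul, qExpLin_apply, map_smul_powerSeries, map_eq_self_of_isIntPS (hb i)]

theorem levelOne_qExpansion_mem_spanIntPS (w : ℤ) (F : ModularForm 𝒮ℒ w) :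
    qExpansion 1 F ∈ spanIntPS := by
  obtain ⟨m, a, b, hb, rfl⟩ := levelOne_exists_int_decomp w F
  rw [← qExpLin_apply, map_sum]
  refine Submodule.sum_mem _ fun i _ => ?_
  rw [map_smul]
  exact Submodule.smul_mem _ _ (isIntPS_mem_spanIntPS (hb i))

theorem levelOne_isZeroAtImInfty_of_coeff_zero (w : ℤ) (F : ModularForm 𝒮ℒ w)
    (h : (qExpansion 1 F).coeff 0 = 0) : IsZeroAtImInfty F :=
  CuspFormClass.zero_at_infty (toCuspForm F h)

end Fermat.Agent.S23
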