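import Fermat.Agent.S23.TranslatesDefs
import Fermat.Prelude.Thm_UpperHalfPlane_eq_of_forall_qCoeff_eq
import Fermat.Prelude.Thm_UpperHalfPlane_qExpansion_prod
import Fermat.Prelude.Thm_CongruenceSubgroup_one_mem_strictPeriods_Gamma0

/-!
`IsQF F`: the function `F : ℍ → ℂ` is `1`-periodic, holomorphic and bounded at `i∞`, so that it
has a well-behaved `q`-expansion.  Closure properties and `q`-expansion algebra.
-/

set_option autoImplicit false

namespace Fermat.Agent.S23

open UpperHalfPlane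
open scoped Manifold MatrixGroups ModularForm

/-- A `1`-periodic holomorphic function on the upper half plane which is bounded at `i∞`. -/
structure IsQF (F : ℍ → ℂ) : Prop where
  per : Function.Periodic (F ∘ UpperHalfPlane.ofComplex) 1
  holo : MDiff F
  bdd : IsBoundedAtImInfty F

theorem IsQF.analyticAt {F : ℍ → ℂ} (h : IsQF F) : AnalyticAt ℂ (cuspFunction 1 F) 0 :=
  UpperHalfPlane.analyticAt_cuspFunction_zero one_pos h.per h.holo h.bdd

theorem isQF_const (c : ℂ) : IsQF (fun _ : ℍ => c) where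
  per := fun _ => rfl
  holo := mdifferentiable_const
  bdd := Filter.const_boundedAtFilter _ c

theorem isQF_zero : IsQF (0 : ℍ → ℂ) := isQF_const 0

theorem isQF_one : IsQF (1 : ℍ → ℂ) := isQF_const 1

theorem IsQF.add {F G : ℍ → ℂ} (hF : IsQF F) (hG : IsQF G) : IsQF (F + G) where
  per := fun x => by
    have h1 := hF.per x
    have h2 := hG.per x
    simp only [Function.comp_apply, Pi.add_apply] at h1 h2 ⊢
    rw [h1, h2]
  holo := hF.holo.add hG.holo
  bdd := hF.bdd.add hG.bdd

theorem IsQF.neg {F : ℍ → ℂ} (hF : IsQF F) : IsQF (-F) where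
  per := fun x => by
    have h1 := hF.per x
    simp only [Function.comp_apply, Pi.neg_apply] at h1 ⊢
    rw [h1]
  holo := hF.holo.neg
  bdd := hF.bdd.neg

theorem IsQF.sub {F G : ℍ → ℂ} (hF : IsQF F) (hG : IsQF G) : IsQF (F - G) := by
  rw [sub_eq_add_neg]
  exact hF.add hG.neg

theorem IsQF.mul {F G : ℍ → ℂ} (hF : IsQF F) (hG : IsQF G) : IsQF (F * G) where
  per := fun x => by
    have h1 := hF.per x
    have h2 := hG.per x
    simp only [Function.comp_apply, Pi.mul_apply] at h1 h2 ⊢
    rw [h1, h2]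
  holo := hF.holo.mul hG.holo
  bdd := hF.bdd.mul hG.bdd

theorem IsQF.smul {F : ℍ → ℂ} (hF : IsQF F) (c : ℂ) : IsQF (c • F) := by
  have : c • F = (fun _ : ℍ => c) * F := by
    ext τ
    simp
  rw [this]
  exact (isQF_const c).mul hF

theorem IsQF.pow {F : ℍ → ℂ} (hF : IsQF F) (n : ℕ) : IsQF (F ^ n) := by
  induction n with
  | zero => simpa using isQF_one
  | succ n ih => rw [pow_succ]; exact ih.mul hF

theorem isQF_sum {ι : Type*} (s : Finset ι) (F : ι → ℍ → ℂ) (h : ∀ i ∈ s, IsQF (F i)) :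
    IsQF (∑ i ∈ s, F i) := by
  classical
  induction s using Finset.induction_on with
  | empty => simpa using isQF_zero
  | insert a s ha ih =>
    rw [Finset.sum_insert ha]
    exact (h a (Finset.mem_insert_self a s)).add
      (ih fun i hi => h i (Finset.mem_insert_of_mem hi))

theorem isQF_prod {ι : Type*} (s : Finset ι) (F : ι → ℍ → ℂ) (h : ∀ i ∈ s, IsQF (F i)) :
    IsQF (∏ i ∈ s, F i) := by
  classical
  induction s using Finset.induction_on with
  | empty => simpa using isQF_one
  | insert a s ha ih =>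
    rw [Finset.prod_insert ha]
    exact (h a (Finset.mem_insert_self a s)).mul
      (ih fun i hi => h i (Finset.mem_insert_of_mem hi))

theorem IsQF.qExpansion_add {F G : ℍ → ℂ} (hF : IsQF F) (hG : IsQF G) :
    qExpansion 1 (F + G) = qExpansion 1 F + qExpansion 1 G :=
  UpperHalfPlane.qExpansion_add hF.analyticAt hG.analyticAt

theorem IsQF.qExpansion_sub {F G : ℍ → ℂ} (hF : IsQF F) (hG : IsQF G) :
    qExpansion 1 (F - G) = qExpansion 1 F - qExpansion 1 G :=
  UpperHalfPlane.qExpansion_sub hF.analyticAt hG.analyticAt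

theorem IsQF.qExpansion_neg {F : ℍ → ℂ} (hF : IsQF F) :
    qExpansion 1 (-F) = -qExpansion 1 F :=
  UpperHalfPlane.qExpansion_neg hF.analyticAt

theorem IsQF.qExpansion_mul {F G : ℍ → ℂ} (hF : IsQF F) (hG : IsQF G) :
    qExpansion 1 (F * G) = qExpansion 1 F * qExpansion 1 G :=
  UpperHalfPlane.qExpansion_mul hF.analyticAt hG.analyticAt

theorem IsQF.qExpansion_smul {F : ℍ → ℂ} (hF : IsQF F) (c : ℂ) :
    qExpansion 1 (c • F) = c • qExpansion 1 F :=
  UpperHalfPlane.qExpansion_smul hF.analyticAt c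

theorem IsQF.qExpansion_pow {F : ℍ → ℂ} (hF : IsQF F) (n : ℕ) :
    qExpansion 1 (F ^ n) = qExpansion 1 F ^ n := by
  induction n with
  | zero => simpa using UpperHalfPlane.qExpansion_one 1
  | succ n ih => rw [pow_succ, (hF.pow n).qExpansion_mul hF, ih, pow_succ]

theorem IsQF.qExpansion_sum {ι : Type*} {F : ι → ℍ → ℂ} (s : Finset ι)
    (h : ∀ i ∈ s, IsQF (F i)) :
    qExpansion 1 (∑ i ∈ s, F i) = ∑ i ∈ s, qExpansion 1 (F i) := by
  classical
  induction s using Finset.induction_on with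
  | empty => simpa using UpperHalfPlane.qExpansion_zero 1
  | insert a s ha ih =>
    rw [Finset.sum_insert ha, Finset.sum_insert ha,
      (h a (Finset.mem_insert_self a s)).qExpansion_add
        (isQF_sum s F fun i hi => h i (Finset.mem_insert_of_mem hi)),
      ih fun i hi => h i (Finset.mem_insert_of_mem hi)]

theorem IsQF.qExpansion_prod {ι : Type*} {F : ι → ℍ → ℂ} (s : Finset ι)
    (h : ∀ i ∈ s, IsQF (F i)) :
    qExpansion 1 (∏ i ∈ s, F i) = ∏ i ∈ s, qExpansion 1 (F i) :=
  UpperHalfPlane.qExpansion_prod s fun i hi => (h i hi).analyticAt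

theorem qExpansion_const (c : ℂ) : qExpansion 1 (fun _ : ℍ => c) = PowerSeries.C c := by
  have h1 : (fun _ : ℍ => c) = c • (1 : ℍ → ℂ) := by
    ext τ
    simp
  rw [h1, isQF_one.qExpansion_smul, UpperHalfPlane.qExpansion_one]
  ext n
  simp [PowerSeries.coeff_one, PowerSeries.coeff_C]

theorem IsQF.eq_of_qExpansion_eq {F G : ℍ → ℂ} (hF : IsQF F) (hG : IsQF G)
    (h : qExpansion 1 F = qExpansion 1 G) : F = G :=
  UpperHalfPlane.eq_of_forall_qCoeff_eq hF.per hF.holo hF.bdd hG.per hG.holo hG.bdd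
    fun n => by simp only [ModularFormClass.qCoeff, h]

theorem IsQF.hasSum_qExpansion {F : ℍ → ℂ} (hF : IsQF F) (τ : ℍ) :
    HasSum (fun m : ℕ => (qExpansion 1 F).coeff m • Function.Periodic.qParam 1 τ ^ m) (F τ) :=
  UpperHalfPlane.hasSum_qExpansion one_pos hF.per hF.holo hF.bdd τ

theorem isQF_of_levelOne {k : ℤ} (f : ModularForm 𝒮ℒ k) : IsQF f where
  per := SlashInvariantFormClass.periodic_comp_ofComplex f
    one_mem_strictPeriods_SL
  holo := ModularFormClass.holo f
  bdd := by
    have : Fact (IsCusp OnePoint.infty 𝒮ℒ) :=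
      ⟨Subgroup.isCusp_of_mem_strictPeriods one_pos one_mem_strictPeriods_SL⟩
    exact ModularFormClass.bdd_at_infty f

theorem isQF_of_Γ0 {N : ℕ} {k : ℤ} {F : Type*} [FunLike F ℍ ℂ]
    [ModularFormClass F (Γ0 N) k] (f : F) : IsQF f where
  per := SlashInvariantFormClass.periodic_comp_ofComplex f
    (CongruenceSubgroup.one_mem_strictPeriods_Gamma0 N)
  holo := ModularFormClass.holo f
  bdd := by
    have : Fact (IsCusp OnePoint.infty (Γ0 N)) :=
      ⟨Subgroup.isCusp_of_mem_strictPeriods one_pos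
        (CongruenceSubgroup.one_mem_strictPeriods_Gamma0 N)⟩
    exact ModularFormClass.bdd_at_infty f

end Fermat.Agent.S23
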