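import Mathlib
import Fermat.Agent.S23.QF
import Fermat.Agent.S23.LevelOne
import Fermat.Agent.S23.DeltaN
import Fermat.Agent.S23.NormPoly
import Fermat.Agent.S23.Lagrange
import Fermat.Agent.S23.Extension

/-!
Galois conjugation of cusp forms on `Γ₀(N)`: for every ring automorphism `σ` of `ℂ` and every
cusp form `f` there is a cusp form whose `q`-expansion is the coefficientwise `σ`-conjugate.
-/

set_option autoImplicit false

namespace Fermat.Agent.S23

open UpperHalfPlane ModularForm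
open scoped MatrixGroups Manifold ModularForm

section ConjPair

/-- `F'` is a `τ`-conjugate of `F` (both holomorphic, periodic, bounded at `i∞`). -/
def IsConjPair (τ : ℂ →+* ℂ) (F F' : ℍ → ℂ) : Prop :=
  IsQF F ∧ IsQF F' ∧ qExpansion 1 F' = PowerSeries.map τ (qExpansion 1 F)

variable {τ : ℂ →+* ℂ} {F F' G G' : ℍ → ℂ}

theorem IsConjPair.add (h₁ : IsConjPair τ F F') (h₂ : IsConjPair τ G G') :
    IsConjPair τ (F + G) (F' + G') := by
  refine ⟨h₁.1.add h₂.1, h₁.2.1.add h₂.2.1, ?_⟩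
  rw [h₁.2.1.qExpansion_add h₂.2.1, h₁.1.qExpansion_add h₂.1, map_add, h₁.2.2, h₂.2.2]

theorem IsConjPair.mul (h₁ : IsConjPair τ F F') (h₂ : IsConjPair τ G G') :
    IsConjPair τ (F * G) (F' * G') := by
  refine ⟨h₁.1.mul h₂.1, h₁.2.1.mul h₂.2.1, ?_⟩
  rw [h₁.2.1.qExpansion_mul h₂.2.1, h₁.1.qExpansion_mul h₂.1, map_mul, h₁.2.2, h₂.2.2]

theorem IsConjPair.pow (h : IsConjPair τ F F') (n : ℕ) : IsConjPair τ (F ^ n) (F' ^ n) := by
  refine ⟨h.1.pow n, h.2.1.pow n, ?_⟩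
  rw [h.2.1.qExpansion_pow n, h.1.qExpansion_pow n, map_pow, h.2.2]

theorem isConjPair_sum {ι : Type*} (s : Finset ι) (F F' : ι → ℍ → ℂ)
    (h : ∀ i ∈ s, IsConjPair τ (F i) (F' i)) :
    IsConjPair τ (∑ i ∈ s, F i) (∑ i ∈ s, F' i) := by
  refine ⟨isQF_sum s F fun i hi => (h i hi).1, isQF_sum s F' fun i hi => (h i hi).2.1, ?_⟩
  rw [IsQF.qExpansion_sum s fun i hi => (h i hi).2.1,
    IsQF.qExpansion_sum s fun i hi => (h i hi).1, map_sum]
  exact Finset.sum_congr rfl fun i hi => (h i hi).2.2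

theorem IsConjPair.eq_zero (hτ : Function.Injective τ) (h : IsConjPair τ F F') :
    F' = 0 ↔ F = 0 := by
  constructor
  · intro h0
    apply h.1.eq_of_qExpansion_eq isQF_zero
    have h1 : PowerSeries.map τ (qExpansion 1 F) = 0 := by
      rw [← h.2.2, h0, UpperHalfPlane.qExpansion_zero]
    rw [UpperHalfPlane.qExpansion_zero]
    ext m
    have h2 := congrArg (PowerSeries.coeff m) h1
    rw [PowerSeries.coeff_map, map_zero] at h2
    rw [map_zero]
    exact hτ (by rw [h2, map_zero])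
  · intro h0
    apply h.2.1.eq_of_qExpansion_eq isQF_zero
    rw [h.2.2, h0, UpperHalfPlane.qExpansion_zero, map_zero]

end ConjPair

section Automorphy

/-- `F(γ z) = (c z + d)^κ F(z)` for all `z`. -/
def IsAut (γ : SL(2, ℤ)) (κ : ℤ) (F : ℍ → ℂ) : Prop :=
  ∀ z : ℍ, F (γ • z) = denom γ z ^ κ * F z

variable {γ : SL(2, ℤ)} {κ κ₁ κ₂ : ℤ} {F G : ℍ → ℂ}

theorem isAut_iff_slash : IsAut γ κ F ↔ F ∣[κ] γ = F := by
  constructor
  · intro h
    ext z
    rw [SL_slash_apply, h z, mul_comm, ← mul_assoc, ← zpow_add₀ (denom_ne_zero γ z)]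
    simp
  · intro h z
    have h1 := congrFun h z
    rw [SL_slash_apply] at h1
    rw [← h1, mul_comm, mul_assoc, ← zpow_add₀ (denom_ne_zero γ z)]
    simp

theorem IsAut.mul (h₁ : IsAut γ κ₁ F) (h₂ : IsAut γ κ₂ G) : IsAut γ (κ₁ + κ₂) (F * G) := by
  intro z
  rw [Pi.mul_apply, Pi.mul_apply, h₁ z, h₂ z, zpow_add₀ (denom_ne_zero γ z)]
  ring

theorem IsAut.pow (h : IsAut γ κ F) (n : ℕ) : IsAut γ (κ * n) (F ^ n) := by
  intro z
  rw [Pi.pow_apply, Pi.pow_apply, h z, mul_pow, zpow_mul, zpow_natCast]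

theorem isAut_sum {ι : Type*} (s : Finset ι) (F : ι → ℍ → ℂ) (h : ∀ i ∈ s, IsAut γ κ (F i)) :
    IsAut γ κ (∑ i ∈ s, F i) := by
  intro z
  rw [Finset.sum_apply, Finset.sum_apply, Finset.mul_sum]
  exact Finset.sum_congr rfl fun i hi => h i hi z

theorem IsAut.congr_weight (h : IsAut γ κ₁ F) (hκ : κ₁ = κ₂) : IsAut γ κ₂ F := hκ ▸ h

theorem isAut_of_levelOne {κ : ℤ} (f : ModularForm 𝒮ℒ κ) (γ : SL(2, ℤ)) : IsAut γ κ f := by
  rw [isAut_iff_slash]
  exact SlashInvariantFormClass.slash_action_eq f _ ⟨γ, rfl⟩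

theorem isAut_of_Γ0 {N : ℕ} {κ : ℤ} {F : Type*} [FunLike F ℍ ℂ]
    [SlashInvariantFormClass F (Γ0 N) κ] (f : F) {γ : SL(2, ℤ)}
    (hγ : γ ∈ CongruenceSubgroup.Gamma0 N) : IsAut γ κ f := by
  rw [isAut_iff_slash]
  exact SlashInvariantFormClass.slash_action_eq f _ ⟨γ, hγ, rfl⟩

end Automorphy


section DeltaFacts

variable (N : ℕ) [NeZero N]

theorem isRatPS_qExpansion_DeltaNFun : IsRatPS (qExpansion 1 (DeltaNFun N)) := by
  intro n
  rw [qExpansion_DeltaNFun_coeff]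
  split_ifs
  · exact isRatPS_qExpansion_discriminant _
  · exact ⟨0, by simp⟩

theorem isAut_DeltaNFun {γ : SL(2, ℤ)} (hγ : γ ∈ CongruenceSubgroup.Gamma0 N) :
    IsAut γ 12 (DeltaNFun N) := by
  rw [← coe_DeltaN]
  exact isAut_of_Γ0 (DeltaN N) hγ

end DeltaFacts

section Main

variable {N : ℕ} [NeZero N]

/-- Conjugate pairs built as polynomials in `Δ(N·)` with level one coefficients. -/
theorem isConjPair_polyDelta {τ : ℂ →+* ℂ} {d : ℕ} {κ : Fin d → ℤ}
    (u u' : (i : Fin d) → ModularForm 𝒮ℒ (κ i))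
    (h : ∀ i, qExpansion 1 (u' i) = PowerSeries.map τ (qExpansion 1 (u i))) :
    IsConjPair τ (∑ i : Fin d, (u i : ℍ → ℂ) * DeltaNFun N ^ (i : ℕ))
      (∑ i : Fin d, (u' i : ℍ → ℂ) * DeltaNFun N ^ (i : ℕ)) := by
  refine isConjPair_sum _ _ _ fun i _ => ?_
  refine IsConjPair.mul ⟨isQF_of_levelOne _, isQF_of_levelOne _, h i⟩ (IsConjPair.pow ?_ _)
  exact ⟨isQF_DeltaNFun N, isQF_DeltaNFun N,
    (map_eq_self_of_isRatPS (isRatPS_qExpansion_DeltaNFun N) τ).symm⟩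

theorem isAut_polyDelta {d : ℕ} {w : ℤ} (u : (i : Fin d) → ModularForm 𝒮ℒ (w - 12 * (i : ℕ)))
    {γ : SL(2, ℤ)} (hγ : γ ∈ CongruenceSubgroup.Gamma0 N) :
    IsAut γ w (∑ i : Fin d, (u i : ℍ → ℂ) * DeltaNFun N ^ (i : ℕ)) := by
  refine isAut_sum _ _ fun i _ => ?_
  exact ((isAut_of_levelOne (u i) γ).mul ((isAut_DeltaNFun N hγ).pow i)).congr_weight (by ring)

theorem coeff_zero_eq_zero_of_isZeroAtImInfty {F : ℍ → ℂ} (hF : IsQF F)
    (h0 : IsZeroAtImInfty F) : PowerSeries.coeff 0 (qExpansion 1 F) = 0 := by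
  rw [UpperHalfPlane.qExpansion_coeff_zero one_pos hF.analyticAt hF.per]
  exact h0.valueAtInfty_eq_zero

/-- **Galois conjugation of cusp forms.** -/
theorem exists_conj (N : ℕ) [NeZero N] (k : ℤ) (σ : ℂ ≃+* ℂ) (f : CuspForm (Γ0 N) k) :
    ∃ f' : CuspForm (Γ0 N) k,
      qExpansion 1 f' = PowerSeries.map (σ : ℂ →+* ℂ) (qExpansion 1 f) := by
  classical
  set τ : ℂ →+* ℂ := (σ : ℂ →+* ℂ) with hτdef
  have hτinj : Function.Injective τ := σ.injective
  obtain ⟨n, c, hn, hc0, hrel⟩ := exists_monic_relation_cusp N k f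
  obtain ⟨d, w, a, b, ⟨z₀, hz₀⟩, hfrac⟩ :=
    exists_fraction_rep N (DeltaN N) (coe_DeltaN N) k (ModularFormClass.modularForm f)
  choose c' hc' using fun j => levelOne_exists_conj _ τ (c j)
  choose a' ha' using fun i => levelOne_exists_conj _ τ (a i)
  choose b' hb' using fun i => levelOne_exists_conj _ τ (b i)
  set g := DeltaNFun N with hg
  set s : ℍ → ℂ := ∑ i : Fin d, (a i : ℍ → ℂ) * g ^ (i : ℕ) with hs
  set P : ℍ → ℂ := ∑ i : Fin d, (b i : ℍ → ℂ) * g ^ (i : ℕ) with hP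
  set s' : ℍ → ℂ := ∑ i : Fin d, (a' i : ℍ → ℂ) * g ^ (i : ℕ) with hs'
  set P' : ℍ → ℂ := ∑ i : Fin d, (b' i : ℍ → ℂ) * g ^ (i : ℕ) with hP'
  have hsp : IsConjPair τ s s' := isConjPair_polyDelta a a' ha'
  have hPp : IsConjPair τ P P' := isConjPair_polyDelta b b' hb'
  have hcp : ∀ j, IsConjPair τ (c j) (c' j) := fun j =>
    ⟨isQF_of_levelOne _, isQF_of_levelOne _, hc' j⟩
  have hfQ : IsQF (f : ℍ → ℂ) := isQF_of_Γ0 f
  -- the fraction identity at the level of functions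
  have hsz : ∀ z, s z = ∑ i : Fin d, a i z * DeltaNFun N z ^ (i : ℕ) := fun z => by
    simp [hs, hg, Finset.sum_apply]
  have hPz : ∀ z, P z = ∑ i : Fin d, b i z * DeltaNFun N z ^ (i : ℕ) := fun z => by
    simp [hP, hg, Finset.sum_apply]
  have hsf : ∀ z, s z * f z = P z := fun z => by
    rw [hsz, hPz]
    exact hfrac z
  have hs0 : s ≠ 0 := fun h0 => hz₀ (by rw [← hsz, h0]; rfl)
  have hs'0 : s' ≠ 0 := fun h0 => hs0 ((hsp.eq_zero hτinj).mp h0)
  -- the monic relation for `P`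
  have hL : P ^ n + ∑ j : Fin n, (c j : ℍ → ℂ) * s ^ (n - (j : ℕ)) * P ^ (j : ℕ) = 0 := by
    ext z
    simp only [Pi.add_apply, Pi.pow_apply, Finset.sum_apply, Pi.mul_apply, Pi.zero_apply]
    have h1 : P z ^ n + ∑ j : Fin n, c j z * s z ^ (n - (j : ℕ)) * P z ^ (j : ℕ)
        = s z ^ n * (f z ^ n + ∑ j : Fin n, c j z * f z ^ (j : ℕ)) := by
      rw [mul_add, Finset.mul_sum, ← hsf z, mul_pow]
      congr 1
      refine Finset.sum_congr rfl fun j _ => ?_
      have hj : n - (j : ℕ) + (j : ℕ) = n := Nat.sub_add_cancel j.2.le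
      rw [mul_pow]
      calc c j z * s z ^ (n - (j : ℕ)) * (s z ^ (j : ℕ) * f z ^ (j : ℕ))
          = (s z ^ (n - (j : ℕ)) * s z ^ (j : ℕ)) * (c j z * f z ^ (j : ℕ)) := by ring
        _ = s z ^ n * (c j z * f z ^ (j : ℕ)) := by rw [← pow_add, hj]
    rw [h1, hrel z, mul_zero]
  have hLp : IsConjPair τ (P ^ n + ∑ j : Fin n, (c j : ℍ → ℂ) * s ^ (n - (j : ℕ)) * P ^ (j : ℕ))
      (P' ^ n + ∑ j : Fin n, (c' j : ℍ → ℂ) * s' ^ (n - (j : ℕ)) * P' ^ (j : ℕ)) :=
    (hPp.pow n).add (isConjPair_sum _ _ _ fun j _ => ((hcp j).mul (hsp.pow _)).mul (hPp.pow _))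
  have hL' : P' ^ n + ∑ j : Fin n, (c' j : ℍ → ℂ) * s' ^ (n - (j : ℕ)) * P' ^ (j : ℕ) = 0 :=
    (hLp.eq_zero hτinj).mpr hL
  have hrel' : ∀ z : ℍ, P' z ^ n
      + ∑ j : Fin n, c' j z * s' z ^ (n - (j : ℕ)) * P' z ^ (j : ℕ) = 0 := fun z => by
    have := congrFun hL' z
    simpa [Finset.sum_apply] using this
  -- the holomorphic quotient
  obtain ⟨G, hG, hGs, hGrel⟩ := exists_mdiff_quotient_of_integral hPp.2.1.holo hsp.2.1.holo
    hs'0 n (fun j => (c' j : ℍ → ℂ)) (fun j => (c' j).holo') hrel'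
  -- invariance under `Γ₀(N)`
  have hGinv : ∀ γ : SL(2, ℤ), γ ∈ CongruenceSubgroup.Gamma0 N → G ∣[k] γ = G := by
    intro γ hγ
    have hs'aut : IsAut γ w s' := isAut_polyDelta a' hγ
    have hP'aut : IsAut γ (w + k) P' := isAut_polyDelta b' hγ
    have hH : MDiff (G ∣[k] γ - G) := (hG.slash k (γ : GL (Fin 2) ℝ)).sub hG
    have hHs : (G ∣[k] γ - G) * s' = 0 := by
      ext z
      simp only [Pi.mul_apply, Pi.sub_apply, Pi.zero_apply]
      rw [SL_slash_apply]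
      have hD := denom_ne_zero γ z
      have h1 : G (γ • z) * s' (γ • z) = P' (γ • z) := hGs _
      rw [hs'aut z, hP'aut z, ← hGs z, zpow_add₀ hD] at h1
      have h2 : denom γ z ^ w ≠ 0 := zpow_ne_zero _ hD
      have h3 : (G (γ • z) - denom γ z ^ k * G z) * s' z = 0 := by
        apply mul_left_cancel₀ h2
        rw [mul_zero]
        linear_combination h1
      have h4 : denom γ z ^ (-k) * denom γ z ^ k = 1 := by
        rw [← zpow_add₀ hD]; simp
      calc (G (γ • z) * denom γ z ^ (-k) - G z) * s' z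
          = denom γ z ^ (-k) * ((G (γ • z) - denom γ z ^ k * G z) * s' z)
            + (denom γ z ^ (-k) * denom γ z ^ k - 1) * (G z * s' z) := by ring
        _ = 0 := by rw [h3, h4]; ring
    rcases (UpperHalfPlane.mul_eq_zero_iff hH hsp.2.1.holo).mp hHs with h | h
    · exact sub_eq_zero.mp h
    · exact absurd h hs'0
  -- vanishing at the cusps
  have hc'0 : ∀ j, IsZeroAtImInfty (c' j : ℍ → ℂ) := fun j => by
    apply levelOne_isZeroAtImInfty_of_coeff_zero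
    rw [hc' j, PowerSeries.coeff_map,
      coeff_zero_eq_zero_of_isZeroAtImInfty (isQF_of_levelOne (c j)) (hc0 j), map_zero]
  have hcusp : ∀ γ : SL(2, ℤ), IsZeroAtImInfty (G ∣[k] γ) := by
    intro γ
    refine isZeroAtImInfty_of_monic_root n hn (fun j => (c' j : ℍ → ℂ)) hc'0 fun z => ?_
    rw [SL_slash_apply]
    have hD := denom_ne_zero γ z
    have h1 := hGrel (γ • z)
    have h2 : ∀ j : Fin n, c' j (γ • z)
        = denom γ z ^ (k * ((n : ℤ) - (j : ℕ))) * c' j z :=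
      fun j => isAut_of_levelOne (c' j) γ z
    simp only [h2] at h1
    have h3 : (G (γ • z) * denom γ z ^ (-k)) ^ n
        + ∑ j : Fin n, c' j z * (G (γ • z) * denom γ z ^ (-k)) ^ (j : ℕ)
        = denom γ z ^ (-(k * n)) * (G (γ • z) ^ n
          + ∑ j : Fin n, denom γ z ^ (k * ((n : ℤ) - (j : ℕ))) * c' j z
            * G (γ • z) ^ (j : ℕ)) := by
      rw [mul_add, Finset.mul_sum, mul_pow]
      congr 1
      · rw [← zpow_natCast (denom γ z ^ (-k)) n, ← zpow_mul, mul_comm, neg_mul]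
      · refine Finset.sum_congr rfl fun j _ => ?_
        rw [mul_pow, ← zpow_natCast (denom γ z ^ (-k)) j, ← zpow_mul]
        have h5 : denom γ z ^ (-(k * n)) * denom γ z ^ (k * ((n : ℤ) - (j : ℕ)))
            = denom γ z ^ (-k * (j : ℕ)) := by
          rw [← zpow_add₀ hD]; congr 1; ring
        calc c' j z * (G (γ • z) ^ (j : ℕ) * denom γ z ^ (-k * ((j : ℕ) : ℤ)))
            = denom γ z ^ (-k * (j : ℕ)) * (c' j z * G (γ • z) ^ (j : ℕ)) := by ring
          _ = denom γ z ^ (-(k * n)) * (denom γ z ^ (k * ((n : ℤ) - (j : ℕ))) * c' j z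
              * G (γ • z) ^ (j : ℕ)) := by rw [← h5]; ring
    rw [h3, h1, mul_zero]
  -- assemble the cusp form
  let f' : CuspForm (Γ0 N) k :=
    { toFun := G
      slash_action_eq' := by
        rintro _ ⟨γ, hγ, rfl⟩
        exact hGinv γ hγ
      holo' := hG
      zero_at_cusps' := by
        intro c hc
        rw [Subgroup.IsArithmetic.isCusp_iff_isCusp_SL2Z] at hc
        rw [OnePoint.isZeroAt_iff_forall_SL2Z hc]
        intro γ _
        exact hcusp γ }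
  refine ⟨f', ?_⟩
  have hf'Q : IsQF (f' : ℍ → ℂ) := isQF_of_Γ0 f'
  have hGf' : (f' : ℍ → ℂ) = G := rfl
  have h1 : qExpansion 1 G * qExpansion 1 s' = qExpansion 1 P' := by
    rw [← hGf', ← hf'Q.qExpansion_mul hsp.2.1]
    congr 1
    ext z
    exact hGs z
  have h2 : qExpansion 1 s * qExpansion 1 (f : ℍ → ℂ) = qExpansion 1 P := by
    rw [← hsp.1.qExpansion_mul hfQ]
    congr 1
    ext z
    exact hsf z
  rw [hsp.2.2, hPp.2.2, ← h2, map_mul] at h1
  have h3 : PowerSeries.map τ (qExpansion 1 s) ≠ 0 := by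
    rw [← hsp.2.2]
    intro h0
    apply hs'0
    apply hsp.2.1.eq_of_qExpansion_eq isQF_zero
    rw [h0, UpperHalfPlane.qExpansion_zero]
  have h4 : (qExpansion 1 G - PowerSeries.map τ (qExpansion 1 (f : ℍ → ℂ)))
      * PowerSeries.map τ (qExpansion 1 s) = 0 := by
    rw [sub_mul, h1]; ring
  rcases mul_eq_zero.mp h4 with h | h
  · exact sub_eq_zero.mp h
  · exact absurd h h3

end Main

end Fermat.Agent.S23
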