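import Mathlib.FieldTheory.IsAlgClosed.Classification
import Mathlib.FieldTheory.AlgebraicClosure
import Mathlib.FieldTheory.Normal.Basic
import Mathlib.FieldTheory.Separable
import Mathlib.RingTheory.AlgebraicIndependent.TranscendenceBasis
import Mathlib.RingTheory.AlgebraicIndependent.Transcendental
import Mathlib.Analysis.Complex.Polynomial.Basic

set_option autoImplicit false

namespace Fermat.Agent.S23

open MvPolynomial

section Extend

variable {R L : Type*} [Field R] [Field L] [Algebra R L] [IsAlgClosed L]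

/-- Any ring automorphism of the polynomial ring on a transcendence basis extends to the
algebraically closed field. -/
theorem exists_ringEquiv_of_transcendenceBasis {ι : Type*} (v : ι → L)
    (hv : IsTranscendenceBasis R v) (e : MvPolynomial ι R ≃+* MvPolynomial ι R) :
    ∃ σ : L ≃+* L, ∀ P : MvPolynomial ι R, σ (aeval v P) = aeval v (e P) := by
  have := IsAlgClosed.isAlgClosure_of_transcendence_basis v hv
  let a : MvPolynomial ι R ≃ₐ[R] Algebra.adjoin R (Set.range v) := hv.1.aevalEquiv
  let eA : Algebra.adjoin R (Set.range v) ≃+* Algebra.adjoin R (Set.range v) :=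
    a.symm.toRingEquiv.trans (e.trans a.toRingEquiv)
  refine ⟨IsAlgClosure.equivOfEquiv L L eA, fun P => ?_⟩
  have h1 : aeval v P = algebraMap (Algebra.adjoin R (Set.range v)) L (a P) :=
    (hv.1.algebraMap_aevalEquiv P).symm
  have h2 : aeval v (e P) = algebraMap (Algebra.adjoin R (Set.range v)) L (a (e P)) :=
    (hv.1.algebraMap_aevalEquiv (e P)).symm
  rw [h1, h2, IsAlgClosure.equivOfEquiv_algebraMap]
  congr 1
  simp [eA]

end Extend

/-- The shift automorphism `X i₀ ↦ X i₀ + 1` of a polynomial ring. -/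
noncomputable def shiftEquiv (R : Type*) [CommRing R] (ι : Type*) [DecidableEq ι] (i₀ : ι) :
    MvPolynomial ι R ≃+* MvPolynomial ι R :=
  (AlgEquiv.ofAlgHom
    (aeval fun i => X i + C (if i = i₀ then (1 : R) else 0))
    (aeval fun i => X i - C (if i = i₀ then (1 : R) else 0))
    (by ext i; simp) (by ext i; simp) : MvPolynomial ι R ≃ₐ[R] MvPolynomial ι R).toRingEquiv

theorem shiftEquiv_X (R : Type*) [CommRing R] (ι : Type*) [DecidableEq ι] (i₀ : ι) :
    shiftEquiv R ι i₀ (X i₀) = X i₀ + 1 := by
  simp [shiftEquiv]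

section General

variable {L : Type*} [Field L] [CharZero L] [IsAlgClosed L]

theorem exists_ringAut_ne_of_transcendental {x : L} (hx : Transcendental ℚ x) :
    ∃ σ : L ≃+* L, σ x ≠ x := by
  classical
  have hs : AlgebraicIndepOn ℚ (id : L → L) {x} := by
    rw [AlgebraicIndepOn]
    exact (algebraicIndependent_singleton_iff (⟨x, rfl⟩ : ({x} : Set L))).mpr hx
  obtain ⟨t, hxt, ht⟩ := exists_isTranscendenceBasis_superset hs
  let i₀ : t := ⟨x, hxt rfl⟩
  obtain ⟨σ, hσ⟩ := exists_ringEquiv_of_transcendenceBasis (R := ℚ) (Subtype.val : t → L) ht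
    (shiftEquiv ℚ t i₀)
  refine ⟨σ, ?_⟩
  have h := hσ (X i₀)
  rw [shiftEquiv_X] at h
  simp only [aeval_X, map_add, map_one] at h
  change σ x = x + 1 at h
  rw [h]
  simp

theorem exists_ringAut_ne_of_isAlgebraic {x : L} (hx : IsAlgebraic ℚ x)
    (hx' : ∀ r : ℚ, x ≠ (r : L)) : ∃ σ : L ≃+* L, σ x ≠ x := by
  classical
  have hint : IsIntegral ℚ x := hx.isIntegral
  -- another root of the minimal polynomial
  have hsep : (minpoly ℚ x).Separable := (minpoly.irreducible hint).separable
  have hdeg : 2 ≤ (minpoly ℚ x).natDegree := by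
    rw [Nat.two_le_iff]
    refine ⟨(minpoly.natDegree_pos hint).ne', fun h1 => ?_⟩
    have hmem := (minpoly.natDegree_eq_one_iff (A := ℚ) (B := L) (x := x)).mp h1
    obtain ⟨r, hr⟩ := hmem
    exact hx' r (by rw [← hr]; simp)
  have hsplits : ((minpoly ℚ x).map (algebraMap ℚ L)).Splits := IsAlgClosed.splits _
  have hcard : ((minpoly ℚ x).aroots L).toFinset.card = (minpoly ℚ x).natDegree := by
    have hnd : ((minpoly ℚ x).aroots L).Nodup :=
      Polynomial.nodup_roots hsep.map
    rw [Multiset.toFinset_card_of_nodup hnd]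
    have := hsplits.natDegree_eq_card_roots
    rw [Polynomial.natDegree_map] at this
    exact this.symm
  obtain ⟨y, hy, hyx⟩ : ∃ y ∈ ((minpoly ℚ x).aroots L).toFinset, y ≠ x := by
    by_contra hcon
    push Not at hcon
    have hsub : ((minpoly ℚ x).aroots L).toFinset ⊆ {x} := fun z hz => by
      simp [hcon z hz]
    have := Finset.card_le_card hsub
    rw [hcard] at this
    simp at this
    omega
  have hyroot : Polynomial.aeval y (minpoly ℚ x) = 0 := by
    rw [Multiset.mem_toFinset, Polynomial.mem_aroots] at hy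
    exact hy.2
  have hyalg : IsAlgebraic ℚ y := ⟨minpoly ℚ x, minpoly.ne_zero hint, hyroot⟩
  -- work in the algebraic closure of ℚ inside L
  let K := algebraicClosure ℚ L
  have hxK : x ∈ K := (mem_algebraicClosure_iff).mpr hx
  have hyK : y ∈ K := (mem_algebraicClosure_iff).mpr hyalg
  let x' : K := ⟨x, hxK⟩
  let y' : K := ⟨y, hyK⟩
  have hmin : minpoly ℚ x' = minpoly ℚ x := by
    simpa using (minpoly.algebraMap_eq (algebraMap K L).injective x').symm
  have hx'alg : IsAlgebraic ℚ x' := (isAlgebraic_algebraMap_iff (algebraMap K L).injective).mp hx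
  have hev : Polynomial.aeval y' (minpoly ℚ x') = 0 := by
    apply (algebraMap K L).injective
    rw [map_zero, ← Polynomial.aeval_algebraMap_apply, hmin]
    exact hyroot
  have : IsAlgClosure ℚ K := algebraicClosure.isAlgClosure (F := ℚ) (E := L)
  have : Normal ℚ K := IsAlgClosure.normal ℚ K
  obtain ⟨τ, hτ⟩ := minpoly.exists_algEquiv_of_root' hx'alg hev
  obtain ⟨ι, v, hv⟩ := exists_isTranscendenceBasis' K L
  obtain ⟨σ, hσ⟩ := exists_ringEquiv_of_transcendenceBasis (R := K) v hv
    (MvPolynomial.mapEquiv ι τ.toRingEquiv)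
  refine ⟨σ, ?_⟩
  have h := hσ (C x')
  simp only [aeval_C, mapEquiv_apply, map_C] at h
  have h' : σ x = y := by
    have e1 : algebraMap K L x' = x := rfl
    have e2 : algebraMap K L (τ x') = y := by
      rw [hτ]; rfl
    rw [← e1, ← e2]
    exact h
  rw [h']
  exact hyx

theorem exists_ringAut_ne_general {x : L} (hx : ∀ r : ℚ, x ≠ (r : L)) :
    ∃ σ : L ≃+* L, σ x ≠ x := by
  by_cases h : IsAlgebraic ℚ x
  · exact exists_ringAut_ne_of_isAlgebraic h hx
  · exact exists_ringAut_ne_of_transcendental h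

end General

/-- A complex number which is not rational is moved by some field automorphism of `ℂ`. -/
theorem exists_ringAut_ne {x : ℂ} (hx : ∀ r : ℚ, x ≠ (r : ℂ)) : ∃ σ : ℂ ≃+* ℂ, σ x ≠ x :=
  exists_ringAut_ne_general hx

end Fermat.Agent.S23
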