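import Mathlib.LinearAlgebra.Dual.Lemmas
import Mathlib.LinearAlgebra.Dual.Basis
import Mathlib.LinearAlgebra.FiniteDimensional.Lemmas
import Fermat.Agent.S23.AutC

set_option autoImplicit false

namespace Fermat.Agent.S23

open Module

/-- Galois descent for finite-dimensional spaces of complex sequences: a finite-dimensional
space embedded in `ℕ → ℂ` whose image is stable under every field automorphism of `ℂ`
(acting coefficientwise) is spanned by its elements with rational coordinates. -/
theorem span_rational_of_stable {V : Type*} [AddCommGroup V] [Module ℂ V] [FiniteDimensional ℂ V]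
    (ι : V →ₗ[ℂ] (ℕ → ℂ)) (hι : Function.Injective ι)
    (hσ : ∀ (σ : ℂ ≃+* ℂ) (v : V), ∃ v' : V, ∀ n, ι v' n = σ (ι v n)) :
    Submodule.span ℂ {v : V | ∀ n, ∃ r : ℚ, ι v n = (r : ℂ)} = ⊤ := by
  classical
  -- coefficient functionals
  let c : ℕ → Dual ℂ V := fun n => (LinearMap.proj n).comp ι
  have hc : ∀ n v, c n v = ι v n := fun n v => rfl
  -- they span the dual
  have hspan : Submodule.span ℂ (Set.range c) = ⊤ := by
    have h0 : (Submodule.span ℂ (Set.range c)).dualCoannihilator = ⊥ := by
      rw [eq_bot_iff]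
      intro v hv
      rw [Submodule.mem_dualCoannihilator] at hv
      rw [Submodule.mem_bot]
      apply hι
      rw [map_zero]
      funext n
      exact hv (c n) (Submodule.subset_span ⟨n, rfl⟩)
    have h1 := Subspace.dualCoannihilator_dualAnnihilator_eq
      (W := Submodule.span ℂ (Set.range c))
    rw [h0, Submodule.dualAnnihilator_bot] at h1
    exact h1.symm
  obtain ⟨b, hb_sub, hb_span, hb_li⟩ := exists_linearIndependent ℂ (Set.range c)
  have hb_top : ⊤ ≤ Submodule.span ℂ (Set.range ((↑) : b → Dual ℂ V)) := by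
    rw [Subtype.range_coe, hb_span, hspan]
  let B : Basis b ℂ (Dual ℂ V) := Basis.mk hb_li hb_top
  have hB : ∀ φ : b, B φ = (φ : Dual ℂ V) := fun φ => by simp [B]
  have : Fintype b := FiniteDimensional.fintypeBasisIndex B
  -- index of each basis functional
  have hidx : ∀ φ : b, ∃ n : ℕ, c n = (φ : Dual ℂ V) := fun φ => hb_sub φ.2
  choose idx hidx using hidx
  -- predual basis
  let E : Basis b ℂ V := B.dualBasis.map (evalEquiv ℂ V).symm
  have hE : ∀ φ ψ : b, (ψ : Dual ℂ V) (E φ) = if ψ = φ then 1 else 0 := by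
    intro φ ψ
    have : (ψ : Dual ℂ V) (E φ) = B.dualBasis φ (B ψ) := by
      simp [E, hB]
    rw [this, Basis.dualBasis_apply_self]
  -- elements of V are determined by the basis functionals
  have hsep : ∀ v w : V, (∀ ψ : b, (ψ : Dual ℂ V) v = (ψ : Dual ℂ V) w) → v = w := by
    intro v w h
    apply (evalEquiv ℂ V).injective
    apply B.ext
    intro ψ
    simp only [evalEquiv_apply, Dual.eval_apply, hB]
    exact h ψ
  -- each E φ has rational coordinates
  have hrat : ∀ φ : b, ∀ n, ∃ r : ℚ, ι (E φ) n = (r : ℂ) := by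
    intro φ n
    by_contra hcon
    push Not at hcon
    obtain ⟨σ, hσne⟩ := exists_ringAut_ne hcon
    obtain ⟨v', hv'⟩ := hσ σ (E φ)
    have hv'E : v' = E φ := by
      apply hsep
      intro ψ
      rw [← hidx ψ, hc, hc, hv', ← hc, hidx ψ, hE]
      split_ifs <;> simp
    apply hσne
    rw [← hv' n, hv'E]
  rw [eq_top_iff, ← E.span_eq]
  apply Submodule.span_mono
  rintro _ ⟨φ, rfl⟩
  exact hrat φ

end Fermat.Agent.S23
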