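import Mathlib
import Fermat.Agent.S23.Conj
import Fermat.Agent.S23.Descent
import Fermat.Agent.S23.BoundedDenoms
import Fermat.Prelude.Def_CuspForm_IntegralStructure
import Fermat.Prelude.Thm_CuspForm_intLattice_fg

/-!
The integral structure on `S_k(Γ₀(N))`: cusp forms with integer `q`-expansion span.
-/

set_option autoImplicit false

namespace Fermat.Agent.S23

open UpperHalfPlane ModularForm
open scoped MatrixGroups Manifold ModularForm

variable (N : ℕ) (k : ℤ)

/-- The `q`-expansion coefficients as a linear map. -/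
noncomputable def coeffMapL : CuspForm (Γ0 N) k →ₗ[ℂ] (ℕ → ℂ) where
  toFun f n := PowerSeries.coeff n (qExpansion 1 f)
  map_add' f g := by
    funext n
    rw [FunLike.coe_add, (isQF_of_Γ0 f).qExpansion_add (isQF_of_Γ0 g), map_add]
    rfl
  map_smul' c f := by
    funext n
    rw [FunLike.coe_smul, (isQF_of_Γ0 f).qExpansion_smul c, PowerSeries.coeff_smul]
    rfl

theorem coeffMapL_apply (f : CuspForm (Γ0 N) k) (n : ℕ) :
    coeffMapL N k f n = PowerSeries.coeff n (qExpansion 1 f) := rfl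

theorem coeffMapL_injective : Function.Injective (coeffMapL N k) := by
  intro f g h
  apply DFunLike.coe_injective
  apply (isQF_of_Γ0 f).eq_of_qExpansion_eq (isQF_of_Γ0 g)
  ext n
  exact congrFun h n

variable [NeZero N]

theorem finiteDimensional_cuspForm : FiniteDimensional ℂ (CuspForm (Γ0 N) k) := by
  classical
  let B := P2MW.S_CuspForm_intLattice_fg.W3WsD.sturmB N k
  let π : (ℕ → ℂ) →ₗ[ℂ] (Fin (B + 1) → ℂ) :=
    { toFun := fun a i => a i
      map_add' := fun _ _ => rfl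
      map_smul' := fun _ _ => rfl }
  have hinj : Function.Injective (π.comp (coeffMapL N k)) := by
    intro f g h
    apply P2MW.S_CuspForm_intLattice_fg.W3WsD.trunc_injective N k
    funext i
    exact congrFun h i
  exact FiniteDimensional.of_injective _ hinj

/-- Cusp forms with rational `q`-expansion span. -/
theorem span_rational :
    Submodule.span ℂ {f : CuspForm (Γ0 N) k | IsRatPS (qExpansion 1 f)} = ⊤ := by
  have := finiteDimensional_cuspForm N k
  have h := span_rational_of_stable (coeffMapL N k) (coeffMapL_injective N k) (fun σ v => by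
    obtain ⟨v', hv'⟩ := exists_conj N k σ v
    refine ⟨v', fun n => ?_⟩
    rw [coeffMapL_apply, coeffMapL_apply, hv', PowerSeries.coeff_map]
    rfl)
  exact h

theorem qExpansion_DeltaNFun_mem_spanIntPS : qExpansion 1 (DeltaNFun N) ∈ spanIntPS := by
  have hB : IsIntPS ((1728 : ℂ) • qExpansion 1 (DeltaNFun N)) := by
    intro n
    rw [PowerSeries.coeff_smul, qExpansion_DeltaNFun_coeff]
    split_ifs
    · obtain ⟨m, hm⟩ := isIntPS_qExpansion_smul_discriminant (n / N)
      rw [PowerSeries.coeff_smul] at hm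
      exact ⟨m, hm⟩
    · exact ⟨0, by simp⟩
  have h1 : qExpansion 1 (DeltaNFun N)
      = (1728 : ℂ)⁻¹ • ((1728 : ℂ) • qExpansion 1 (DeltaNFun N)) := by
    rw [smul_smul, inv_mul_cancel₀ (by norm_num), one_smul]
  rw [h1]
  exact Submodule.smul_mem _ _ (isIntPS_mem_spanIntPS hB)

theorem polyDelta_qExpansion_mem_spanIntPS {d : ℕ} {κ : Fin d → ℤ}
    (u : (i : Fin d) → ModularForm 𝒮ℒ (κ i)) :
    qExpansion 1 (∑ i : Fin d, (u i : ℍ → ℂ) * DeltaNFun N ^ (i : ℕ)) ∈ spanIntPS := by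
  rw [IsQF.qExpansion_sum _ fun i _ => (isQF_of_levelOne (u i)).mul ((isQF_DeltaNFun N).pow _)]
  refine Submodule.sum_mem _ fun i _ => ?_
  rw [(isQF_of_levelOne (u i)).qExpansion_mul ((isQF_DeltaNFun N).pow _),
    (isQF_DeltaNFun N).qExpansion_pow]
  exact mul_mem_spanIntPS (levelOne_qExpansion_mem_spanIntPS _ _)
    (pow_mem_spanIntPS (qExpansion_DeltaNFun_mem_spanIntPS N) _)

/-- A cusp form with rational `q`-expansion has bounded denominators. -/
theorem exists_int_multiple (f : CuspForm (Γ0 N) k) (hf : IsRatPS (qExpansion 1 f)) :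
    ∃ D : ℕ, 0 < D ∧ IsIntPS ((D : ℂ) • qExpansion 1 f) := by
  classical
  obtain ⟨n, c, hn, -, hrel⟩ := exists_monic_relation_cusp N k f
  obtain ⟨d, w, a, b, ⟨z₀, hz₀⟩, hfrac⟩ :=
    exists_fraction_rep N (DeltaN N) (coe_DeltaN N) k (ModularFormClass.modularForm f)
  have hfQ : IsQF (f : ℍ → ℂ) := isQF_of_Γ0 f
  set s : ℍ → ℂ := ∑ i : Fin d, (a i : ℍ → ℂ) * DeltaNFun N ^ (i : ℕ) with hs
  set P : ℍ → ℂ := ∑ i : Fin d, (b i : ℍ → ℂ) * DeltaNFun N ^ (i : ℕ) with hP
  have hsQ : IsQF s :=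
    isQF_sum _ _ fun i _ => (isQF_of_levelOne (a i)).mul ((isQF_DeltaNFun N).pow _)
  have hsz : ∀ z, s z = ∑ i : Fin d, a i z * DeltaNFun N z ^ (i : ℕ) := fun z => by
    simp [hs, Finset.sum_apply]
  have hPz : ∀ z, P z = ∑ i : Fin d, b i z * DeltaNFun N z ^ (i : ℕ) := fun z => by
    simp [hP, Finset.sum_apply]
  have hsf : s * (f : ℍ → ℂ) = P := by
    ext z
    rw [Pi.mul_apply, hsz, hPz]
    exact hfrac z
  have hs0 : qExpansion 1 s ≠ 0 := by
    intro h0
    apply hz₀
    rw [← hsz, hsQ.eq_of_qExpansion_eq isQF_zero (by rw [h0, UpperHalfPlane.qExpansion_zero])]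
    rfl
  have hsP : qExpansion 1 s * qExpansion 1 (f : ℍ → ℂ) = qExpansion 1 P := by
    rw [← hsQ.qExpansion_mul hfQ, hsf]
  have hcQ : ∀ j : Fin n, IsQF ((c j : ℍ → ℂ) * (f : ℍ → ℂ) ^ (j : ℕ)) := fun j =>
    (isQF_of_levelOne (c j)).mul (hfQ.pow _)
  have hrelF : (f : ℍ → ℂ) ^ n + ∑ j : Fin n, (c j : ℍ → ℂ) * (f : ℍ → ℂ) ^ (j : ℕ) = 0 := by
    ext z
    simpa [Finset.sum_apply] using hrel z
  have hrelq : qExpansion 1 (f : ℍ → ℂ) ^ n
      + ∑ j : Fin n, qExpansion 1 (c j) * qExpansion 1 (f : ℍ → ℂ) ^ (j : ℕ) = 0 := by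
    have h1 := congrArg (qExpansion 1) hrelF
    rw [(hfQ.pow n).qExpansion_add (isQF_sum _ _ fun j _ => hcQ j), hfQ.qExpansion_pow,
      IsQF.qExpansion_sum _ fun j _ => hcQ j, UpperHalfPlane.qExpansion_zero] at h1
    rw [← h1]
    congr 1
    refine Finset.sum_congr rfl fun j _ => ?_
    rw [(isQF_of_levelOne (c j)).qExpansion_mul (hfQ.pow _), hfQ.qExpansion_pow]
  exact bounded_denominators_of_relations _ hf _ _ (polyDelta_qExpansion_mem_spanIntPS N a)
    (polyDelta_qExpansion_mem_spanIntPS N b) hs0 hsP n hn (fun j => qExpansion 1 (c j))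
    (fun j => levelOne_qExpansion_mem_spanIntPS _ _) hrelq

/-- **Integral structure**: the cusp forms of weight `k` on `Γ₀(N)` with integer
`q`-expansion span the whole space over `ℂ`. -/
theorem hasIntegralStructure : CuspForm.HasIntegralStructure N k := by
  unfold CuspForm.HasIntegralStructure
  rw [eq_top_iff, ← span_rational N k, Submodule.span_le]
  intro f hf
  obtain ⟨D, hD, hDf⟩ := exists_int_multiple N k f hf
  have hDne : (D : ℂ) ≠ 0 := by exact_mod_cast hD.ne'
  have hmem : (D : ℂ) • f ∈ (CuspForm.intLattice N k : Set (CuspForm (Γ0 N) k)) := by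
    apply Submodule.subset_span
    intro n
    obtain ⟨m, hm⟩ := hDf n
    refine ⟨m, ?_⟩
    rw [← hm]
    show PowerSeries.coeff n (qExpansion 1 ((D : ℂ) • f : CuspForm (Γ0 N) k)) = _
    rw [FunLike.coe_smul, (isQF_of_Γ0 f).qExpansion_smul]
  have h2 : f = (D : ℂ)⁻¹ • ((D : ℂ) • f) := by
    rw [smul_smul, inv_mul_cancel₀ hDne, one_smul]
  rw [h2]
  exact Submodule.smul_mem _ _ (Submodule.subset_span hmem)

end Fermat.Agent.S23
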